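import Fermat.Agent.GAL.KL.Basic

/-!
# GAL / KL / P3a : common denominators, integral multiples, change of basis matrices
(`exists_mul_isInt`, `exists_matrix_of_bases` of the skeleton file `Lattice.lean`.)
-/

set_option autoImplicit false
set_option linter.unusedVariables false

namespace Fermat.Agent.GAL.KL

open Polynomial

variable {L F : Type*} [Field L] [Field F] [Algebra L F] {t : F}

theorem latA_comb_zero_left {d : ℕ} (e : Fin d → F) : comb L t (0 : Fin d → L[X]) e = 0 := by
  simp [comb]

theorem latA_comb_single {d : ℕ} (k : Fin d) (q : L[X]) (e : Fin d → F) :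
    comb L t (Pi.single k q) e = aeval t q * e k := by
  classical
  unfold comb
  rw [Finset.sum_eq_single k]
  · rw [Pi.single_eq_same]
  · intro i _ hi
    rw [Pi.single_eq_of_ne hi, map_zero, zero_mul]
  · intro h
    exact absurd (Finset.mem_univ k) h

theorem latA_comb_mul_right {d : ℕ} (q : L[X]) (p : Fin d → L[X]) (e : Fin d → F) :
    comb L t p (fun i => aeval t q * e i) = aeval t q * comb L t p e := by
  unfold comb
  rw [Finset.mul_sum]
  refine Finset.sum_congr rfl fun i _ => ?_
  ring

/-- common denominators for a finite family. -/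
theorem Spans.latA_common {d : ℕ} {β : Fin d → F} (hβs : Spans L t β) {m : ℕ} (x : Fin m → F) :
    ∃ (q : L[X]) (P : Fin m → Fin d → L[X]), q ≠ 0 ∧ ∀ i, aeval t q * x i = comb L t (P i) β := by
  classical
  choose q p hq hp using fun i => hβs (x i)
  refine ⟨∏ i, q i, fun i j => (∏ k ∈ Finset.univ.erase i, q k) * p i j,
    Finset.prod_ne_zero_iff.2 fun i _ => hq i, fun i => ?_⟩
  rw [comb_smul, ← hp i, ← mul_assoc, ← map_mul, Finset.prod_erase_mul _ _ (Finset.mem_univ i)]

/-- every element of `F` has a nonzero polynomial multiple which is integral over `L[t]`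
(`F` is finite over `L(t)` as it is spanned by `β`). -/
theorem exists_mul_isInt (hinj : ∀ p : L[X], aeval t p = 0 → p = 0) {d : ℕ} (β : Fin d → F)
    (hβs : Spans L t β) (x : F) : ∃ q : L[X], q ≠ 0 ∧ IsInt L t (aeval t q * x) := by
  obtain ⟨q, M, hq, hM⟩ := hβs.latA_common (fun i => x * β i)
  refine ⟨q, hq, ?_⟩
  let _ : Algebra L[X] F := (aeval t : L[X] →ₐ[L] F).toRingHom.toAlgebra
  have hsmul : ∀ (p : L[X]) (z : F), p • z = aeval t p * z := fun p z => rfl
  have key : IsIntegral L[X] (aeval t q * x) := by
    refine isIntegral_of_smul_mem_submodule (M := F) (Submodule.span L[X] (Set.range β)) ?_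
      (Submodule.fg_span (Set.finite_range β)) _ ?_
    · -- some `β i` is nonzero
      intro hbot
      obtain ⟨q₁, p₁, hq₁, h₁⟩ := hβs 1
      have hz : ∀ i, β i = 0 := fun i => by
        have : β i ∈ Submodule.span L[X] (Set.range β) := Submodule.subset_span ⟨i, rfl⟩
        rw [hbot] at this
        simpa using this
      have : comb L t p₁ β = 0 := by
        unfold comb
        exact Finset.sum_eq_zero fun i _ => by rw [hz i, mul_zero]
      rw [this, mul_one] at h₁
      exact hq₁ (hinj _ h₁)
    · intro n hn
      induction hn using Submodule.span_induction with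
      | mem z hz =>
        obtain ⟨i, rfl⟩ := hz
        rw [smul_eq_mul, mul_assoc, hM i]
        unfold comb
        refine Submodule.sum_mem _ fun j _ => ?_
        rw [← hsmul]
        exact Submodule.smul_mem _ _ (Submodule.subset_span ⟨j, rfl⟩)
      | zero => rw [smul_zero]; exact Submodule.zero_mem _
      | add y z _ _ hy hz => rw [smul_add]; exact Submodule.add_mem _ hy hz
      | smul a y _ hy =>
        rw [smul_comm]
        exact Submodule.smul_mem _ _ hy
  exact key

/-- P3c.  common denominators: two bases of lattices are related by polynomial matrices. -/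
theorem exists_matrix_of_bases (hinj : ∀ p : L[X], aeval t p = 0 → p = 0) {d : ℕ}
    (β : Fin d → F) (hβs : Spans L t β)
    (b : Fin d → F) (hb : ∀ p : Fin d → L[X], comb L t p b = 0 → p = 0) (x : Fin d → F) :
    ∃ (q : L[X]) (P : Matrix (Fin d) (Fin d) L[X]), q ≠ 0 ∧
      ∀ i, aeval t q * x i = comb L t (P i) b := by
  classical
  obtain ⟨q₁, A, hq₁, hA⟩ := hβs.latA_common b
  obtain ⟨q₂, P₂, hq₂, hP₂⟩ := hβs.latA_common x
  -- `A` is nonsingular
  have hdet : (Matrix.of A).det ≠ 0 := by
    intro h0
    obtain ⟨u, hu, huA⟩ := Matrix.exists_vecMul_eq_zero_iff.2 h0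
    apply hu
    have h1 : comb L t u (fun j => comb L t (A j) β) = 0 := by
      have := comb_comb (t := t) u (Matrix.of A) β
      rw [huA, latA_comb_zero_left] at this
      exact this
    have h2 : comb L t (fun j => q₁ * u j) b = 0 := by
      rw [comb_smul, ← latA_comb_mul_right]
      simp only [hA]
      exact h1
    have h3 := hb _ h2
    funext j
    have := congrFun h3 j
    simpa [hq₁] using this
  -- `β` in terms of `b`
  have hβb : ∀ k, aeval t (Matrix.of A).det * β k =
      comb L t (fun j => q₁ * (Matrix.of A).adjugate k j) b := by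
    intro k
    rw [comb_smul, ← latA_comb_mul_right]
    simp only [hA]
    have := comb_comb (t := t) ((Matrix.of A).adjugate k) (Matrix.of A) β
    have e : Matrix.vecMul ((Matrix.of A).adjugate k) (Matrix.of A) =
        Pi.single k (Matrix.of A).det := by
      have h := Matrix.adjugate_mul (Matrix.of A)
      funext j
      have hj := congrFun (congrFun h k) j
      rw [Matrix.mul_apply] at hj
      rw [Matrix.vecMul, dotProduct]
      rw [hj, Matrix.smul_apply, Matrix.one_apply, smul_eq_mul]
      by_cases hkj : k = j
      · subst hkj; simp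
      · rw [if_neg hkj, mul_zero, Pi.single_eq_of_ne (Ne.symm hkj)]
    rw [e, latA_comb_single] at this
    exact this.symm
  refine ⟨(Matrix.of A).det * q₂,
    Matrix.of fun i => Matrix.vecMul (P₂ i) (Matrix.of fun k j => q₁ * (Matrix.of A).adjugate k j),
    mul_ne_zero hdet hq₂, fun i => ?_⟩
  rw [map_mul, mul_assoc, hP₂ i, ← latA_comb_mul_right]
  simp only [hβb]
  exact comb_comb (t := t) (P₂ i) (Matrix.of fun k j => q₁ * (Matrix.of A).adjugate k j) b

end Fermat.Agent.GAL.KL
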