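import Fermat.Agent.GAL.KL.Basic

/-!
# GAL / KL / P3b, P3c : freeness of `B_t` and `I_t(w)` (helper file for `Lattice.lean`)

Everything is proved for an arbitrary `L[X]`-algebra structure on `F` whose structure map is
`aeval t`; the final statements instantiate it with `(aeval t).toAlgebra`.
-/

set_option autoImplicit false

namespace Fermat.Agent.GAL.KL

open Polynomial

namespace LatticeFree

variable {L F : Type*} [Field L] [Field F] [Algebra L F] {t : F}

section abstract

variable [Algebra L[X] F]

theorem comb_eq (hA : ∀ p : L[X], algebraMap L[X] F p = aeval t p) {d : ℕ}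
    (p : Fin d → L[X]) (e : Fin d → F) : comb L t p e = ∑ i, p i • e i := by
  simp [comb, Algebra.smul_def, hA]

theorem isInt_iff (hA : ∀ p : L[X], algebraMap L[X] F p = aeval t p) (x : F) :
    IsInt L t x ↔ IsIntegral L[X] x := by
  have : algebraMap L[X] F = ((aeval t : L[X] →ₐ[L] F) : L[X] →+* F) := RingHom.ext hA
  unfold IsInt IsIntegral
  rw [this]

theorem isBasis_of_basis (hA : ∀ p : L[X], algebraMap L[X] F p = aeval t p) {d : ℕ}
    (S : Submodule L[X] F) (b : Module.Basis (Fin d) L[X] S) :
    IsBasis L t (fun i => (b i : F)) (S : Set F) := by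
  constructor
  · intro p hp
    rw [comb_eq hA] at hp
    have h1 : ∑ i, p i • b i = 0 := by
      apply Subtype.ext
      simpa using hp
    exact funext ((Fintype.linearIndependent_iff.1 b.linearIndependent) p h1)
  · intro x
    constructor
    · intro hx
      refine ⟨fun i => b.repr ⟨x, hx⟩ i, ?_⟩
      rw [comb_eq hA]
      have h1 : ((∑ i, b.repr ⟨x, hx⟩ i • b i : S) : F) = x :=
        congrArg Subtype.val (b.sum_repr ⟨x, hx⟩)
      rw [Submodule.coe_sum] at h1
      simpa only [Submodule.coe_smul] using h1.symm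
    · rintro ⟨p, rfl⟩
      rw [comb_eq hA]
      exact S.sum_mem fun i _ => S.smul_mem _ (b i).2

theorem basis_of_isBasis (hA : ∀ p : L[X], algebraMap L[X] F p = aeval t p) {d : ℕ}
    (S : Submodule L[X] F) (e : Fin d → F) (he : IsBasis L t e (S : Set F)) :
    Nonempty (Module.Basis (Fin d) L[X] S) := by
  have hmem : ∀ i, e i ∈ S := by
    intro i
    have : e i ∈ (S : Set F) := by
      rw [he.2]
      refine ⟨Pi.single i 1, ?_⟩
      rw [comb_eq hA]
      simp [Pi.single_apply]
    exact this
  refine ⟨Module.Basis.mk (v := fun i => (⟨e i, hmem i⟩ : S)) ?_ ?_⟩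
  · rw [Fintype.linearIndependent_iff]
    intro p hp
    have h1 : comb L t p e = 0 := by
      rw [comb_eq hA]
      simpa using congrArg Subtype.val hp
    intro i
    rw [he.1 p h1]
    rfl
  · rintro ⟨x, hx⟩ -
    obtain ⟨p, hp⟩ := (he.2 x).1 hx
    rw [comb_eq hA] at hp
    have : (⟨x, hx⟩ : S) = ∑ i, p i • (⟨e i, hmem i⟩ : S) := by
      apply Subtype.ext
      simpa using hp
    rw [this]
    exact Submodule.sum_mem _ fun i _ => Submodule.smul_mem _ _
      (Submodule.subset_span (Set.mem_range_self i))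

theorem faithful (hA : ∀ p : L[X], algebraMap L[X] F p = aeval t p)
    (hinj : ∀ p : L[X], aeval t p = 0 → p = 0) : FaithfulSMul L[X] F := by
  rw [faithfulSMul_iff_algebraMap_injective, injective_iff_map_eq_zero]
  intro p hp
  exact hinj p (by rwa [← hA])

theorem exists_basis_BB_aux [CharZero L] (hA : ∀ p : L[X], algebraMap L[X] F p = aeval t p)
    (hinj : ∀ p : L[X], aeval t p = 0 → p = 0) {d : ℕ}
    (β : Fin d → F) (hβi : ∀ p : Fin d → L[X], comb L t p β = 0 → p = 0) (hβs : Spans L t β) :
    ∃ b : Fin d → F, IsBasis L t b (BB L t) := by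
  have : FaithfulSMul L[X] F := faithful hA hinj
  let : Algebra (FractionRing L[X]) F := FractionRing.liftAlgebra L[X] F
  have : IsScalarTower L[X] (FractionRing L[X]) F := FractionRing.isScalarTower_liftAlgebra _ _
  have hli0 : LinearIndependent L[X] β := by
    rw [Fintype.linearIndependent_iff]
    intro p hp i
    rw [hβi p (by rw [comb_eq hA]; exact hp)]
    rfl
  have hli : LinearIndependent (FractionRing L[X]) β :=
    (LinearIndependent.iff_fractionRing L[X] (FractionRing L[X])).1 hli0
  have hsp : ⊤ ≤ Submodule.span (FractionRing L[X]) (Set.range β) := by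
    intro x _
    obtain ⟨q, p, hq, h⟩ := hβs x
    rw [comb_eq hA, ← hA, ← Algebra.smul_def] at h
    have hq' : algebraMap L[X] (FractionRing L[X]) q ≠ 0 := by
      simpa using hq
    have hx : x = (algebraMap L[X] (FractionRing L[X]) q)⁻¹ • ∑ i, p i • β i := by
      rw [← h, ← algebraMap_smul (FractionRing L[X]) q x, smul_smul, inv_mul_cancel₀ hq', one_smul]
    rw [hx]
    refine Submodule.smul_mem _ _ (Submodule.sum_mem _ fun i _ => ?_)
    rw [← algebraMap_smul (FractionRing L[X]) (p i) (β i)]
    exact Submodule.smul_mem _ _ (Submodule.subset_span (Set.mem_range_self i))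
  let B := Module.Basis.mk hli hsp
  have : FiniteDimensional (FractionRing L[X]) F := B.finiteDimensional_of_finite
  have hfr : Module.finrank (FractionRing L[X]) F = d := by
    rw [Module.finrank_eq_card_basis B]; simp
  have : CharZero L[X] := inferInstance
  have : CharZero (FractionRing L[X]) := inferInstance
  have : Algebra.IsSeparable (FractionRing L[X]) F := inferInstance
  have : Module.IsTorsionFree L[X] F := inferInstance
  have : Module.Free L[X] (integralClosure L[X] F) :=
    IsIntegralClosure.module_free L[X] (FractionRing L[X]) F (integralClosure L[X] F)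
  have : Module.Finite L[X] (integralClosure L[X] F) :=
    IsIntegralClosure.finite L[X] (FractionRing L[X]) F (integralClosure L[X] F)
  have hrk : Module.finrank L[X] (integralClosure L[X] F) = d := by
    rw [IsIntegralClosure.rank L[X] (FractionRing L[X]) F (integralClosure L[X] F), hfr]
  let b : Module.Basis (Fin d) L[X] (Subalgebra.toSubmodule (integralClosure L[X] F)) :=
    Module.finBasisOfFinrankEq L[X] (integralClosure L[X] F) hrk
  refine ⟨fun i => (b i : F), ?_⟩
  have := isBasis_of_basis hA _ b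
  convert this using 1
  ext x
  exact isInt_iff hA x

theorem exists_basis_II_aux (hA : ∀ p : L[X], algebraMap L[X] F p = aeval t p)
    (hinj : ∀ p : L[X], aeval t p = 0 → p = 0)
    (hmul : ∀ x : F, ∃ q : L[X], q ≠ 0 ∧ IsInt L t (aeval t q * x)) {d : ℕ}
    (b : Fin d → F) (hb : IsBasis L t b (BB L t)) {n : ℕ} (hn : 0 < n) {w : F} (hw : w ≠ 0) :
    ∃ e : Fin d → F, IsBasis L t e (II L t n w) := by
  have : FaithfulSMul L[X] F := faithful hA hinj
  have : Module.IsTorsionFree L[X] F := inferInstance
  let Bs : Submodule L[X] F := Subalgebra.toSubmodule (integralClosure L[X] F)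
  have hBs : (Bs : Set F) = BB L t := by
    ext x
    exact (isInt_iff hA x).symm
  let Is : Submodule L[X] F :=
    { carrier := II L t n w
      add_mem' := fun hx hy => II.add hn hx hy
      zero_mem' := by
        change IsInt L t (0 ^ n * w)
        rw [zero_pow hn.ne', zero_mul]
        exact IsInt.zero
      smul_mem' := fun c x hx => by
        rw [Algebra.smul_def, hA]
        exact II.mul (IsInt.aeval c) hx }
  obtain ⟨bB⟩ := basis_of_isBasis hA Bs b (hBs ▸ hb)
  have : Module.Finite L[X] Bs := Module.Finite.of_basis bB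
  have hrB : Module.finrank L[X] Bs = d := by
    rw [Module.finrank_eq_card_basis bB]; simp
  obtain ⟨q₁, hq₁, h₁⟩ := hmul w
  obtain ⟨q₀, hq₀, h₀⟩ := hmul w⁻¹
  obtain ⟨m, rfl⟩ : ∃ m, n = m + 1 := ⟨n - 1, by omega⟩
  have hf : ∀ x ∈ Bs, LinearMap.lsmul L[X] F q₁ x ∈ Is := by
    intro x hx
    change IsInt L t ((q₁ • x) ^ (m + 1) * w)
    have h2 : (q₁ • x) ^ (m + 1) * w = aeval t (q₁ ^ m) * x ^ (m + 1) * (aeval t q₁ * w) := by
      rw [Algebra.smul_def, hA, map_pow]
      ring
    rw [h2]
    exact ((IsInt.aeval _).mul (((isInt_iff hA x).2 hx).pow _)).mul h₁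
  have hg : ∀ x ∈ Is, LinearMap.lsmul L[X] F q₀ x ∈ Bs := by
    intro x hx
    apply (isInt_iff hA _).1
    apply IsInt.of_pow hn
    have h2 : (LinearMap.lsmul L[X] F q₀ x) ^ (m + 1)
        = aeval t (q₀ ^ m) * (x ^ (m + 1) * w) * (aeval t q₀ * w⁻¹) := by
      rw [LinearMap.lsmul_apply, Algebra.smul_def, hA, map_pow]
      field_simp
      ring
    rw [h2]
    exact ((IsInt.aeval _).mul hx).mul h₀
  let f : Bs →ₗ[L[X]] Is := (LinearMap.lsmul L[X] F q₁).restrict hf
  let g : Is →ₗ[L[X]] Bs := (LinearMap.lsmul L[X] F q₀).restrict hg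
  have hfi : Function.Injective f := by
    intro x y hxy
    have h3 : q₁ • (x : F) = q₁ • (y : F) := congrArg Subtype.val hxy
    exact Subtype.ext (smul_right_injective F hq₁ h3)
  have hgi : Function.Injective g := by
    intro x y hxy
    have h3 : q₀ • (x : F) = q₀ • (y : F) := congrArg Subtype.val hxy
    exact Subtype.ext (smul_right_injective F hq₀ h3)
  have : IsNoetherian L[X] Bs := inferInstance
  have : Module.Finite L[X] Is := Module.Finite.of_injective g hgi
  have : Module.Free L[X] Is := inferInstance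
  have hrI : Module.finrank L[X] Is = d :=
    le_antisymm (hrB ▸ LinearMap.finrank_le_finrank_of_injective hgi)
      (hrB ▸ LinearMap.finrank_le_finrank_of_injective hfi)
  exact ⟨_, isBasis_of_basis hA Is (Module.finBasisOfFinrankEq L[X] Is hrI)⟩

end abstract

/-- `F` as an `L[X]`-algebra via `X ↦ t`. -/
noncomputable abbrev alg (L : Type*) {F : Type*} [Field L] [Field F] [Algebra L F] (t : F) :
    Algebra L[X] F :=
  ((aeval t : L[X] →ₐ[L] F) : L[X] →+* F).toAlgebra

/-- P3a (= `exists_basis_BB` of `Lattice.lean`). -/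
theorem exists_basis_BB' [CharZero L] (hinj : ∀ p : L[X], aeval t p = 0 → p = 0) {d : ℕ}
    (β : Fin d → F) (hβi : ∀ p : Fin d → L[X], comb L t p β = 0 → p = 0) (hβs : Spans L t β) :
    ∃ b : Fin d → F, IsBasis L t b (BB L t) :=
  letI := alg L t
  exists_basis_BB_aux (fun _ => rfl) hinj β hβi hβs

/-- P3b (= `exists_basis_II` of `Lattice.lean`, with `exists_mul_isInt` as a hypothesis). -/
theorem exists_basis_II' (hinj : ∀ p : L[X], aeval t p = 0 → p = 0)
    (hmul : ∀ x : F, ∃ q : L[X], q ≠ 0 ∧ IsInt L t (aeval t q * x)) {d : ℕ}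
    (b : Fin d → F) (hb : IsBasis L t b (BB L t)) {n : ℕ} (hn : 0 < n) {w : F} (hw : w ≠ 0) :
    ∃ e : Fin d → F, IsBasis L t e (II L t n w) :=
  letI := alg L t
  exists_basis_II_aux (fun _ => rfl) hinj hmul b hb hn hw

end LatticeFree

end Fermat.Agent.GAL.KL
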