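import Fermat.Agent.GAL.KL.Basic
import Fermat.Agent.GAL.KL.LatticeA
import Fermat.Agent.GAL.KL.LatticeFree

/-!
# GAL / KL / P3 : `B_t` and `I_t(w)` are lattices

`exists_mul_isInt` and `exists_matrix_of_bases` are in `LatticeA.lean`; the proofs of the two
statements below are in `LatticeFree.lean`.
-/

set_option autoImplicit false

namespace Fermat.Agent.GAL.KL

open Polynomial

variable {L F : Type*} [Field L] [Field F] [Algebra L F] {t : F}

/-- P3a.  In characteristic zero the integral closure of `L[t]` in `F` is free of rank `d = [F : L(t)]`.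
(`letI : Algebra L[X] F := (aeval t).toAlgebra`, `K := FractionRing L[X]` or `RatFunc L`,
`IsIntegralClosure.isNoetherian`/`IsIntegralClosure.module_free`, `IsIntegralClosure.rank`, `integralClosure`.) -/
theorem exists_basis_BB [CharZero L] (hinj : ∀ p : L[X], aeval t p = 0 → p = 0) {d : ℕ}
    (β : Fin d → F) (hβi : ∀ p : Fin d → L[X], comb L t p β = 0 → p = 0) (hβs : Spans L t β) :
    ∃ b : Fin d → F, IsBasis L t b (BB L t) :=
  LatticeFree.exists_basis_BB' hinj β hβi hβs

/-- P3b.  `I_t(w)` is free of rank `d`: it is an `L[X]`-submodule (`II.add`, `II.mul`),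
`q₁(t) B ⊆ I ⊆ q₀(t)⁻¹ B` where `q₁(t) w ∈ B`, `q₀(t) w⁻¹ ∈ B`
(`(q₀ x)^n = q₀^(n-1) (x^n w) (q₀ w⁻¹)`, `(q₁ b)^n w = q₁^(n-1) b^n (q₁ w)`); submodules of free modules over
a PID are free (`Submodule.nonempty_basis_of_pid`, `Submodule.basisOfPid`), the rank is `d` by sandwiching. -/
theorem exists_basis_II (hinj : ∀ p : L[X], aeval t p = 0 → p = 0) {d : ℕ}
    (β : Fin d → F) (hβs : Spans L t β)
    (b : Fin d → F) (hb : IsBasis L t b (BB L t)) {n : ℕ} (hn : 0 < n) {w : F} (hw : w ≠ 0) :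
    ∃ e : Fin d → F, IsBasis L t e (II L t n w) :=
  LatticeFree.exists_basis_II' hinj (exists_mul_isInt hinj β hβs) b hb hn hw

end Fermat.Agent.GAL.KL
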