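import Fermat.Agent.GAL.KL.LatticeA

/-!
# GAL / KL / P2b : `exists_ON_start` and `IsBasis.of_isUnit_det` of the skeleton file `ONBasis.lean`
-/

set_option autoImplicit false

namespace Fermat.Agent.GAL.KL

open Polynomial

variable {L F Γ₀ : Type*} [Field L] [Field F] [Algebra L F] [LinearOrderedCommGroupWithZero Γ₀]
variable {v : Valuation F Γ₀} {t : F}

/-- multiplying an orthonormal family by an element of `L[t]` of valuation one. -/
theorem ON.onB_mul_of_v_eq_one {d : ℕ} {β : Fin d → F} (hβ : ON L v t β) (q : L[X])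
    (hq : v (aeval t q) = 1) : ON L v t (fun i => aeval t q * β i) := by
  intro p γ
  rw [latA_comb_mul_right, map_mul, hq, one_mul]
  exact hβ p γ

/-- the starting point. -/
theorem exists_ON_start (hG : Gauss L v t) {d : ℕ} (β : Fin d → F) (hβ : ON L v t β)
    (hβs : Spans L t β) (a : Fin d → F) (ha : ∀ p : Fin d → L[X], comb L t p a = 0 → p = 0) :
    ∃ P : Matrix (Fin d) (Fin d) L[X], P.det ≠ 0 ∧ ON L v t (fun i => comb L t (P i) a) := by
  classical
  obtain ⟨q, P₀, hq, hP₀⟩ := exists_matrix_of_bases hG.inj β hβs a ha β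
  obtain ⟨c, hc⟩ := hG.exists_const q
  have hqt : aeval t q ≠ 0 := fun h => hq (hG.inj q h)
  have hc0 : c ≠ 0 := by
    rintro rfl
    rw [map_zero, map_zero] at hc
    exact hqt ((map_eq_zero v).1 hc)
  have hcF : algebraMap L F c ≠ 0 := (map_ne_zero (algebraMap L F)).2 hc0
  have hv1 : v (aeval t (C c⁻¹ * q)) = 1 := by
    rw [map_mul, aeval_C, map_mul, hc, ← map_mul, ← map_mul, inv_mul_cancel₀ hc0, map_one, map_one]
  have hε : ∀ i, comb L t (fun j => C c⁻¹ * P₀ i j) a = aeval t (C c⁻¹ * q) * β i := by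
    intro i
    rw [comb_smul, ← hP₀ i, map_mul, mul_assoc]
  have hON : ON L v t (fun i => comb L t ((Matrix.of fun i j => C c⁻¹ * P₀ i j) i) a) := by
    have := hβ.onB_mul_of_v_eq_one _ hv1
    simp only [← hε] at this
    exact this
  refine ⟨Matrix.of fun i j => C c⁻¹ * P₀ i j, ?_, hON⟩
  intro h0
  obtain ⟨u, hu, huP⟩ := Matrix.exists_vecMul_eq_zero_iff.2 h0
  apply hu
  apply hON.inj hG
  rw [comb_comb, huP, latA_comb_zero_left]

/-- a unimodular change of basis. -/
theorem IsBasis.of_isUnit_det {d : ℕ} {a : Fin d → F} {S : Set F} (ha : IsBasis L t a S)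
    (P : Matrix (Fin d) (Fin d) L[X]) (hP : IsUnit P.det) :
    IsBasis L t (fun i => comb L t (P i) a) S := by
  classical
  refine ⟨fun p hp => ?_, fun x => ?_⟩
  · rw [comb_comb] at hp
    have h1 := ha.1 _ hp
    have h2 : Matrix.vecMul (Matrix.vecMul p P) P⁻¹ = 0 := by rw [h1, Matrix.zero_vecMul]
    rwa [Matrix.vecMul_vecMul, Matrix.mul_nonsing_inv P hP, Matrix.vecMul_one] at h2
  · rw [ha.2 x]
    constructor
    · rintro ⟨p', rfl⟩
      refine ⟨Matrix.vecMul p' P⁻¹, ?_⟩
      rw [comb_comb, Matrix.vecMul_vecMul, Matrix.nonsing_inv_mul P hP, Matrix.vecMul_one]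
    · rintro ⟨p, rfl⟩
      exact ⟨_, comb_comb p P a⟩

end Fermat.Agent.GAL.KL
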