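import Fermat.Agent.GAL.KL.Basic
import Fermat.Agent.GAL.KL.ONBasisStep
import Fermat.Agent.GAL.KL.ONBasisB

/-!
# GAL / KL / P2 : every `L[t]`-lattice has an orthonormal basis

`exists_ON_of_det_ne_zero` (the induction on `natDegree (det P)`) is in `ONBasisStep.lean`,
`exists_ON_start` and `IsBasis.of_isUnit_det` are in `ONBasisB.lean`.
-/

set_option autoImplicit false

namespace Fermat.Agent.GAL.KL

open Polynomial

variable {L F Γ₀ : Type*} [Field L] [Field F] [Algebra L F] [LinearOrderedCommGroupWithZero Γ₀]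
variable {v : Valuation F Γ₀} {t : F}

/-- **P2.** -/
theorem exists_ON_basis [IsAlgClosed L] (hG : Gauss L v t) {d : ℕ} (β : Fin d → F)
    (hβ : ON L v t β) (hβs : Spans L t β) (S : Set F) (a : Fin d → F) (ha : IsBasis L t a S) :
    ∃ e : Fin d → F, IsBasis L t e S ∧ ON L v t e := by
  obtain ⟨P, hP, hON⟩ := exists_ON_start hG β hβ hβs a ha.1
  obtain ⟨P', hP', hON'⟩ := exists_ON_of_det_ne_zero hG a P hP hON
  exact ⟨_, ha.of_isUnit_det P' hP', hON'⟩

end Fermat.Agent.GAL.KL
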