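import Fermat.Agent.GAL.KL.Reflect

/-!
# GAL / KL / P1b : basic API for `IsInt` and the lattice `II`
-/

set_option autoImplicit false

namespace Fermat.Agent.GAL.KL

open Polynomial

variable {L F : Type*} [Field L] [Field F] [Algebra L F] {t : F}

/-! ### integrality -/

theorem IsInt.aeval (q : L[X]) : IsInt L t (aeval t q) :=
  RingHom.isIntegralElem_map _

theorem IsInt.algebraMap (a : L) : IsInt L t (algebraMap L F a) := by
  have h := IsInt.aeval (L := L) (t := t) (C a)
  rwa [aeval_C] at h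

theorem IsInt.zero : IsInt L t (0 : F) := by
  have h := IsInt.algebraMap (L := L) (F := F) (t := t) 0
  rwa [map_zero] at h

theorem IsInt.one : IsInt L t (1 : F) := by
  have h := IsInt.algebraMap (L := L) (F := F) (t := t) 1
  rwa [map_one] at h

theorem IsInt.add {x y : F} (hx : IsInt L t x) (hy : IsInt L t y) : IsInt L t (x + y) :=
  RingHom.IsIntegralElem.add _ hx hy

theorem IsInt.neg {x : F} (hx : IsInt L t x) : IsInt L t (-x) :=
  RingHom.IsIntegralElem.neg _ hx

theorem IsInt.sub {x y : F} (hx : IsInt L t x) (hy : IsInt L t y) : IsInt L t (x - y) :=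
  RingHom.IsIntegralElem.sub _ hx hy

theorem IsInt.mul {x y : F} (hx : IsInt L t x) (hy : IsInt L t y) : IsInt L t (x * y) :=
  RingHom.IsIntegralElem.mul _ hx hy

theorem IsInt.pow {x : F} (hx : IsInt L t x) (m : ℕ) : IsInt L t (x ^ m) := by
  induction m with
  | zero => rw [pow_zero]; exact IsInt.one
  | succ k ih => rw [pow_succ]; exact ih.mul hx

theorem IsInt.sum {ι : Type*} (s : Finset ι) (f : ι → F) (h : ∀ i ∈ s, IsInt L t (f i)) :
    IsInt L t (∑ i ∈ s, f i) := by
  classical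
  induction s using Finset.induction_on with
  | empty => rw [Finset.sum_empty]; exact IsInt.zero
  | insert a s ha ih =>
    rw [Finset.sum_insert ha]
    exact (h a (Finset.mem_insert_self a s)).add
      (ih fun i hi => h i (Finset.mem_insert_of_mem hi))

theorem IsInt.natCast (k : ℕ) : IsInt L t (k : F) := by
  have h := IsInt.algebraMap (L := L) (F := F) (t := t) (k : L)
  rwa [map_natCast] at h

theorem IsInt.of_pow {x : F} {m : ℕ} (hm : 0 < m) (hx : IsInt L t (x ^ m)) : IsInt L t x := by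
  let _ : Algebra L[X] F := ((Polynomial.aeval t : L[X] →ₐ[L] F) : L[X] →+* F).toAlgebra
  have h : IsIntegral L[X] (x ^ m) := hx
  exact IsIntegral.of_pow hm h

/-- if `u` is integral over `L[1/t]` then `t^m u` is integral over `L[t]` for all large `m`. -/
theorem IsInt.shift (ht : t ≠ 0) {u : F} (hu : IsInt L t⁻¹ u) :
    ∃ m₀ : ℕ, ∀ m, m₀ ≤ m → IsInt L t (t ^ m * u) := by
  obtain ⟨P, hP, hPu⟩ := hu
  set N := P.natDegree with hN
  refine ⟨(Finset.range N).sup fun i => (P.coeff i).natDegree, fun m hm => ?_⟩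
  have hdeg : ∀ i ∈ Finset.range N, (P.coeff i).natDegree ≤ m := fun i hi =>
    le_trans (Finset.le_sup (f := fun i => (P.coeff i).natDegree) hi) hm
  refine ⟨X ^ N + ∑ i ∈ Finset.range N,
    C (X ^ (m * (N - i - 1)) * reflect m (P.coeff i)) * X ^ i, ?_, ?_⟩
  · apply monic_X_pow_add
    refine lt_of_le_of_lt (degree_sum_le _ _) ?_
    refine (Finset.sup_lt_iff (WithBot.bot_lt_coe N)).mpr ?_
    intro i hi
    refine lt_of_le_of_lt (degree_C_mul_X_pow_le _ _) ?_
    exact WithBot.coe_lt_coe.mpr (Finset.mem_range.mp hi)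
  · rw [eval₂_eq_sum_range, ← hN, Finset.sum_range_succ, hN, hP.coeff_natDegree, ← hN, map_one,
      one_mul] at hPu
    rw [eval₂_add, eval₂_finsetSum, eval₂_X_pow]
    have key : ∀ i ∈ Finset.range N,
        eval₂ ((Polynomial.aeval t : L[X] →ₐ[L] F) : L[X] →+* F) (t ^ m * u)
          (C (X ^ (m * (N - i - 1)) * reflect m (P.coeff i)) * X ^ i) =
        t ^ (m * N) * (((Polynomial.aeval t⁻¹ : L[X] →ₐ[L] F) : L[X] →+* F) (P.coeff i) * u ^ i) := by
      intro i hi
      obtain ⟨k, hk⟩ := Nat.exists_eq_add_of_lt (Finset.mem_range.mp hi)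
      have h1 : N - i - 1 = k := by omega
      rw [eval₂_mul, eval₂_C, eval₂_X_pow, h1, hk]
      simp only [RingHom.coe_coe, map_mul, map_pow, aeval_X]
      rw [aeval_reflect ht m _ (hdeg i hi)]
      ring
    rw [Finset.sum_congr rfl key, ← Finset.mul_sum, mul_pow, ← pow_mul, ← mul_add, add_comm, hPu,
      mul_zero]

/-! ### the lattice `II` -/

theorem II.add {n : ℕ} (hn : 0 < n) {w x y : F} (hx : x ∈ II L t n w) (hy : y ∈ II L t n w) :
    x + y ∈ II L t n w := by
  change IsInt L t ((x + y) ^ n * w)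
  change IsInt L t (x ^ n * w) at hx
  change IsInt L t (y ^ n * w) at hy
  rw [add_pow, Finset.sum_mul]
  refine IsInt.sum _ _ fun k hk => ?_
  have hk' : k ≤ n := Nat.lt_succ_iff.mp (Finset.mem_range.mp hk)
  have h1 : IsInt L t (x ^ k * y ^ (n - k) * w) := by
    refine IsInt.of_pow hn ?_
    have : (x ^ k * y ^ (n - k) * w) ^ n = (x ^ n * w) ^ k * (y ^ n * w) ^ (n - k) := by
      obtain ⟨j, rfl⟩ := Nat.exists_eq_add_of_le hk'
      rw [Nat.add_sub_cancel_left]
      ring
    rw [this]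
    exact (hx.pow k).mul (hy.pow (n - k))
  have h2 : x ^ k * y ^ (n - k) * (n.choose k : F) * w =
      (n.choose k : F) * (x ^ k * y ^ (n - k) * w) := by ring
  rw [h2]
  exact (IsInt.natCast _).mul h1

theorem II.neg {n : ℕ} {w x : F} (hx : x ∈ II L t n w) : -x ∈ II L t n w := by
  change IsInt L t ((-x) ^ n * w)
  change IsInt L t (x ^ n * w) at hx
  rw [neg_pow, mul_assoc]
  exact ((IsInt.one.neg).pow n).mul hx

theorem II.sub {n : ℕ} (hn : 0 < n) {w x y : F} (hx : x ∈ II L t n w) (hy : y ∈ II L t n w) :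
    x - y ∈ II L t n w := by
  rw [sub_eq_add_neg]
  exact II.add hn hx (II.neg hy)

theorem II.mul {n : ℕ} {w x y : F} (hx : IsInt L t x) (hy : y ∈ II L t n w) :
    x * y ∈ II L t n w := by
  change IsInt L t ((x * y) ^ n * w)
  change IsInt L t (y ^ n * w) at hy
  rw [mul_pow, mul_assoc]
  exact (hx.pow n).mul hy

theorem II.shift (ht : t ≠ 0) {n : ℕ} (hn : 0 < n) {w x : F} (hx : x ∈ II L t⁻¹ n w) :
    ∃ m₀ : ℕ, ∀ m, m₀ ≤ m → t ^ m * x ∈ II L t n w := by
  change IsInt L t⁻¹ (x ^ n * w) at hx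
  obtain ⟨m₀, h⟩ := IsInt.shift ht hx
  refine ⟨m₀, fun m hm => ?_⟩
  change IsInt L t ((t ^ m * x) ^ n * w)
  rw [mul_pow, ← pow_mul, mul_assoc]
  exact h _ (le_trans hm (Nat.le_mul_of_pos_right m hn))

end Fermat.Agent.GAL.KL
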