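import Fermat.Agent.GAL.KL.Basic

/-!
# GAL / KL / P9 : an element integral over `L[t]` and over `L[1/t]` is a constant
-/

set_option autoImplicit false

namespace Fermat.Agent.GAL.KL

open Polynomial

variable {L F : Type*} [Field L] [Field F] [Algebra L F] {t : F}

/-- An element integral over `L[s]` lies in every valuation subring of `F` containing `L` and `s`. -/
theorem mem_valuationSubring_of_isInt (V : ValuationSubring F)
    (hLV : ∀ a : L, algebraMap L F a ∈ V) {s x : F} (hs : s ∈ V) (hx : IsInt L s x) : x ∈ V := by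
  have hmem : ∀ p : L[X], ((aeval s : L[X] →ₐ[L] F) : L[X] →+* F) p ∈ V.toSubring := by
    intro p
    change aeval s p ∈ V
    rw [aeval_eq_sum_range]
    refine V.toSubring.sum_mem fun i _ => ?_
    rw [Algebra.smul_def]
    exact V.mul_mem _ _ (hLV _) (V.toSubring.pow_mem hs i)
  let g : L[X] →+* V.toSubring :=
    RingHom.codRestrict ((aeval s : L[X] →ₐ[L] F) : L[X] →+* F) V.toSubring hmem
  obtain ⟨p, hp, hpx⟩ := hx
  have hint : IsIntegral V x := by
    refine ⟨p.map g, hp.map g, ?_⟩
    rw [eval₂_map]
    exact hpx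
  obtain ⟨y, hy⟩ := (isIntegrallyClosed_iff F).mp (inferInstance : IsIntegrallyClosed V) hint
  rw [← hy]
  exact y.2

/-- **P9.**  PROOF: if `x ∉ L` there is a valuation subring `V ⊇ L` of `F` with `x ∉ V` (as `L` is integrally closed in `F`).
Either `t ∈ V` or `t⁻¹ ∈ V`, and `V` is integrally closed: contradiction. -/
theorem const_of_isInt_both [IsAlgClosed L] (hinj : ∀ p : L[X], aeval t p = 0 → p = 0) {x : F}
    (h0 : IsInt L t x) (hoo : IsInt L t⁻¹ x) : ∃ a : L, x = algebraMap L F a := by
  by_contra hcon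
  push Not at hcon
  let R : Subring F := (algebraMap L F).range
  have hxR : x ∉ R := fun ⟨a, ha⟩ => hcon a ha.symm
  have : IsIntegrallyClosedIn R F := by
    rw [Subring.isIntegrallyClosedIn_iff]
    intro y hy
    have hyL : IsIntegral L y := by
      obtain ⟨p, hp, hpy⟩ := hy
      let e : L →+* R := (algebraMap L F).rangeRestrict
      have he : Function.Surjective e := (algebraMap L F).rangeRestrict_surjective
      obtain ⟨q, hq, hqm⟩ : ∃ q : L[X], q.map e = p ∧ q.Monic := by
        obtain ⟨q, hq, -, hqm⟩ := Polynomial.lifts_and_degree_eq_and_monic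
          ((Polynomial.lifts_iff_coeff_lifts p).mpr fun n => by
            obtain ⟨a, ha⟩ := he (p.coeff n)
            exact ⟨a, ha⟩) hp
        exact ⟨q, hq, hqm⟩
      refine ⟨q, hqm, ?_⟩
      rw [← hq, eval₂_map] at hpy
      exact hpy
    have h1 : (minpoly L y).degree = 1 :=
      IsAlgClosed.degree_eq_one_of_irreducible L (minpoly.irreducible hyL)
    exact minpoly.mem_range_of_degree_eq_one L y h1
  obtain ⟨V, hRV, hxV⟩ := Subring.exists_le_valuationSubring_of_isIntegrallyClosedIn hxR
  have hLV : ∀ a : L, algebraMap L F a ∈ V := fun a => hRV ⟨a, rfl⟩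
  rcases V.mem_or_inv_mem t with ht | ht
  · exact hxV (mem_valuationSubring_of_isInt V hLV ht h0)
  · exact hxV (mem_valuationSubring_of_isInt V hLV ht hoo)

end Fermat.Agent.GAL.KL
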