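import Fermat.Agent.GAL.KL.Basic

/-!
# GAL / KL / P6 : Newton iteration inside a chart, and comparison of two approximate roots
-/

set_option autoImplicit false

namespace Fermat.Agent.GAL.KL

open Polynomial

variable {L F Γ₀ : Type*} [Field L] [Field F] [Algebra L F] [LinearOrderedCommGroupWithZero Γ₀]
variable {v : Valuation F Γ₀} {t : F}

omit [Field L] [Algebra L F] in
lemma newton_natCast_le_one (m : ℕ) : v (m : F) ≤ 1 := by
  induction m with
  | zero => simp
  | succ m ih =>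
    rw [Nat.cast_succ]
    exact Valuation.map_add_le v ih (le_of_eq v.map_one)

omit [Field L] [Algebra L F] in
/-- `(1 + x)^n = 1 + n x + x² κ` with `v κ ≤ 1`. -/
lemma newton_binom {x : F} (hx : v x ≤ 1) (n : ℕ) :
    ∃ κ : F, v κ ≤ 1 ∧ (1 + x) ^ n = 1 + n * x + x ^ 2 * κ := by
  induction n with
  | zero => exact ⟨0, by simp, by simp⟩
  | succ n ih =>
    obtain ⟨κ, hκ, h⟩ := ih
    refine ⟨n + κ * (1 + x), ?_, ?_⟩
    · refine Valuation.map_add_le v (newton_natCast_le_one n) ?_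
      rw [map_mul]
      exact mul_le_one' hκ (Valuation.map_add_le v (le_of_eq v.map_one) hx)
    · rw [pow_succ, h]
      push_cast
      ring

omit [Field L] [Algebra L F] in
lemma newton_pow_sub_one_lt {a : F} (ha : v (a - 1) < 1) (n : ℕ) : v (a ^ n - 1) < 1 := by
  induction n with
  | zero => simp
  | succ n ih =>
    have ha1 : v a ≤ 1 := by
      have : a = (a - 1) + 1 := by ring
      rw [this]
      exact Valuation.map_add_le v ha.le (le_of_eq v.map_one)
    have : a ^ (n + 1) - 1 = (a ^ n - 1) * a + (a - 1) := by ring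
    rw [this]
    refine Valuation.map_add_lt v ?_ ha
    rw [map_mul]
    exact lt_of_le_of_lt (mul_le_of_le_one_right' ha1) ih

omit [Field L] [Algebra L F] in
lemma newton_eq_one_of_sub_lt {a : F} (ha : v (a - 1) < 1) : v a = 1 := by
  have : a = 1 + (a - 1) := by ring
  rw [this]
  exact Valuation.map_one_add_of_lt v ha

/-- one Newton step: `G' = G (1 - ε / n)`, `ε = G^n w - 1`.  `(1+ε)(1-ε/n)^n = 1 + ε² * (element of v ≤ 1)`. -/
theorem newton_step {n : ℕ} (hvn : v (n : F) = 1) {w G : F} (hG : G ∈ II L t n w)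
    (hG1 : v (G - 1) < 1) (h1 : v (G ^ n * w - 1) < 1) :
    ∃ G' : F, G' ∈ II L t n w ∧ v (G' ^ n * w - 1) ≤ v (G ^ n * w - 1) ^ 2 ∧ v (G' - 1) < 1 := by
  have hnF : (n : F) ≠ 0 := by
    intro h
    rw [h, map_zero] at hvn
    exact zero_ne_one hvn
  set ε : F := G ^ n * w - 1 with hε
  set δ : F := algebraMap L F ((n : L)⁻¹) * ε with hδ
  have hδ' : δ = ε / n := by
    rw [hδ, map_inv₀, map_natCast]
    field_simp
  have hvδ : v δ = v ε := by
    rw [hδ', map_div₀, hvn, div_one]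
  have hεint : IsInt L t ε := IsInt.sub hG IsInt.one
  have hδint : IsInt L t δ := IsInt.mul (IsInt.algebraMap _) hεint
  refine ⟨(1 - δ) * G, II.mul (IsInt.sub IsInt.one hδint) hG, ?_, ?_⟩
  · obtain ⟨κ, hκ, hb⟩ := newton_binom (v := v) (x := -δ)
      (by rw [Valuation.map_neg, hvδ]; exact h1.le) n
    have hnδ : (n : F) * δ = ε := by
      rw [hδ']; field_simp
    have key : ((1 - δ) * G) ^ n * w - 1 = -ε ^ 2 + (1 + ε) * (δ ^ 2 * κ) := by
      have e1 : ((1 - δ) * G) ^ n * w = (1 + -δ) ^ n * (1 + ε) := by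
        rw [hε, mul_pow]; ring
      rw [e1, hb]
      have : (n : F) * -δ = -ε := by rw [mul_neg, hnδ]
      rw [this]
      ring
    rw [key]
    refine Valuation.map_add_le v ?_ ?_
    · rw [Valuation.map_neg, map_pow]
    · rw [map_mul, map_mul, map_pow, hvδ, Valuation.map_one_add_of_lt v h1, one_mul]
      exact mul_le_of_le_one_right' hκ
  · have : (1 - δ) * G - 1 = (G - 1) - δ * G := by ring
    rw [this]
    refine Valuation.map_sub_lt v hG1 ?_
    rw [map_mul, newton_eq_one_of_sub_lt hG1, mul_one, hvδ]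
    exact h1

/-- iterate of `newton_step`. -/
lemma newton_iter {n : ℕ} (hvn : v (n : F) = 1) {w G : F} (hG : G ∈ II L t n w)
    (hG1 : v (G - 1) < 1) (h1 : v (G ^ n * w - 1) < 1) (k : ℕ) :
    ∃ G' : F, G' ∈ II L t n w ∧ v (G' ^ n * w - 1) ≤ v (G ^ n * w - 1) ^ (2 ^ k) ∧
      v (G' - 1) < 1 := by
  induction k with
  | zero => exact ⟨G, hG, by simp, hG1⟩
  | succ k ih =>
    obtain ⟨G₁, hG₁, hle, hG₁1⟩ := ih
    have h1' : v (G₁ ^ n * w - 1) < 1 :=
      lt_of_le_of_lt hle (pow_lt_one₀ zero_le h1 (by positivity))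
    obtain ⟨G₂, hG₂, hle₂, hG₂1⟩ := newton_step hvn hG₁ hG₁1 h1'
    refine ⟨G₂, hG₂, hle₂.trans ?_, hG₂1⟩
    rw [pow_succ 2 k, pow_mul]
    exact pow_le_pow_left₀ zero_le hle 2

/-- **P6a.** -/
theorem newton (hA : Arch v) {n : ℕ} (hvn : v (n : F) = 1) {w G : F} (hG : G ∈ II L t n w)
    (hG1 : v (G - 1) < 1) (hw : v (w - 1) < 1) (γ : Γ₀) (hγ : γ ≠ 0) :
    ∃ G' : F, G' ∈ II L t n w ∧ v (G' ^ n * w - 1) < γ ∧ v (G' - 1) < 1 := by
  have h1 : v (G ^ n * w - 1) < 1 := by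
    have : G ^ n * w - 1 = (G ^ n - 1) * w + (w - 1) := by ring
    rw [this]
    refine Valuation.map_add_lt v ?_ hw
    rw [map_mul, newton_eq_one_of_sub_lt hw, mul_one]
    exact newton_pow_sub_one_lt hG1 n
  obtain ⟨m, hm⟩ := hA _ h1 γ hγ
  obtain ⟨G', hG', hle, hG'1⟩ := newton_iter hvn hG hG1 h1 m
  refine ⟨G', hG', lt_of_le_of_lt (hle.trans ?_) hm, hG'1⟩
  exact pow_le_pow_of_le_one zero_le h1.le (Nat.lt_two_pow_self).le

omit [Field L] [Algebra L F] in
lemma newton_geom_sum {a b : F} (ha : v (a - 1) < 1) (hb : v (b - 1) < 1) (n : ℕ) :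
    v ((∑ i ∈ Finset.range n, a ^ i * b ^ (n - 1 - i)) - n) < 1 := by
  have : (∑ i ∈ Finset.range n, a ^ i * b ^ (n - 1 - i)) - (n : F)
      = ∑ i ∈ Finset.range n, (a ^ i * b ^ (n - 1 - i) - 1) := by
    rw [Finset.sum_sub_distrib]; simp
  rw [this]
  refine Valuation.map_sum_lt v one_ne_zero (fun i _ => ?_)
  have e : a ^ i * b ^ (n - 1 - i) - 1 = (a ^ i - 1) * b ^ (n - 1 - i) + (b ^ (n - 1 - i) - 1) := by
    ring
  rw [e]
  refine Valuation.map_add_lt v ?_ (newton_pow_sub_one_lt hb _)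
  rw [map_mul, map_pow, newton_eq_one_of_sub_lt hb, one_pow, mul_one]
  exact newton_pow_sub_one_lt ha _

omit [Field L] [Algebra L F] in
/-- **P6b.**  `a^n - b^n = (a - b) ∑ a^i b^(n-1-i)` and the sum is `≡ n`. -/
theorem close_of_pow_close {n : ℕ} (hvn : v (n : F) = 1) {w a b : F} (hw : v (w - 1) < 1)
    (ha : v (a - 1) < 1) (hb : v (b - 1) < 1) (γ : Γ₀)
    (ha' : v (a ^ n * w - 1) < γ) (hb' : v (b ^ n * w - 1) < γ) : v (a - b) < γ := by
  set S : F := ∑ i ∈ Finset.range n, a ^ i * b ^ (n - 1 - i) with hS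
  have hvS : v S = 1 := by
    have h := newton_geom_sum ha hb n
    have e : S = (n : F) + (S - n) := by ring
    rw [e, Valuation.map_add_eq_of_lt_left v (by rw [hvn]; exact h), hvn]
  have hfac : (a - b) * S = a ^ n - b ^ n := by
    rw [hS, mul_comm]
    exact (Commute.all a b).geom_sum₂_mul n
  have e : (a ^ n * w - 1) - (b ^ n * w - 1) = (a - b) * S * w := by
    rw [hfac]; ring
  have h2 : v ((a - b) * S * w) < γ := by
    rw [← e]
    exact Valuation.map_sub_lt v ha' hb'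
  rwa [map_mul, map_mul, hvS, newton_eq_one_of_sub_lt hw, mul_one, mul_one] at h2

end Fermat.Agent.GAL.KL
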