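import Fermat.Agent.GAL.KL.Basic

/-!
# GAL / KL / P7 + P8 : two lattices `Λ0` (over `L[t]`) and `Λoo` (over `L[1/t]`) with orthonormal bases

P7 (`split`) is `H¹(O(D + s ∞)) = 0`, integrally.  P8 (`exists_global`) is the polar part argument.
-/

set_option autoImplicit false

namespace Fermat.Agent.GAL.KL

open Polynomial

variable {L F Γ₀ : Type*} [Field L] [Field F] [Algebra L F] [LinearOrderedCommGroupWithZero Γ₀]
variable {v : Valuation F Γ₀} {t : F}

/-! ### closure properties of a set with a basis -/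

section Closure

variable {d : ℕ} {e : Fin d → F} {S : Set F}

lemma comb_zero' (e : Fin d → F) : comb L t (0 : Fin d → L[X]) e = 0 := by
  simp [comb]

lemma IsBasis.zero_mem (he : IsBasis L t e S) : (0 : F) ∈ S :=
  (he.2 0).2 ⟨0, (comb_zero' e).symm⟩

lemma IsBasis.comb_mem (he : IsBasis L t e S) (p : Fin d → L[X]) : comb L t p e ∈ S :=
  (he.2 _).2 ⟨p, rfl⟩

lemma IsBasis.add_mem (he : IsBasis L t e S) {x y : F} (hx : x ∈ S) (hy : y ∈ S) : x + y ∈ S := by
  obtain ⟨p, rfl⟩ := (he.2 x).1 hx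
  obtain ⟨q, rfl⟩ := (he.2 y).1 hy
  rw [← comb_add]
  exact he.comb_mem _

lemma IsBasis.aeval_mul_mem (he : IsBasis L t e S) (q : L[X]) {x : F} (hx : x ∈ S) :
    aeval t q * x ∈ S := by
  obtain ⟨p, rfl⟩ := (he.2 x).1 hx
  rw [← comb_smul]
  exact he.comb_mem _

lemma IsBasis.pow_mul_mem (he : IsBasis L t e S) (m : ℕ) {x : F} (hx : x ∈ S) :
    t ^ m * x ∈ S := by
  have := he.aeval_mul_mem (X ^ m) hx
  simpa using this

lemma IsBasis.algebraMap_mul_mem (he : IsBasis L t e S) (c : L) {x : F} (hx : x ∈ S) :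
    algebraMap L F c * x ∈ S := by
  have := he.aeval_mul_mem (C c) hx
  simpa using this

lemma IsBasis.sum_mem (he : IsBasis L t e S) {ι : Type*} (s : Finset ι) (f : ι → F)
    (hf : ∀ i ∈ s, f i ∈ S) : ∑ i ∈ s, f i ∈ S := by
  classical
  induction s using Finset.induction_on with
  | empty => simpa using he.zero_mem
  | insert a s ha ih =>
    rw [Finset.sum_insert ha]
    exact he.add_mem (hf a (Finset.mem_insert_self a s))
      (ih fun i hi => hf i (Finset.mem_insert_of_mem hi))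

end Closure

/-- the induction behind `split`. -/
lemma split_aux (hG : Gauss L v t) {d : ℕ} (Λ0 Λoo : Set F) (e e' : Fin d → F)
    (he : IsBasis L t e Λ0) (heON : ON L v t e) (he' : IsBasis L t⁻¹ e' Λoo)
    (s : ℕ) (hs : ∀ i, (t⁻¹) ^ s * e i ∈ Λoo) (γ : Γ₀) (m : ℕ) :
    ∀ x : F, v x < γ → t ^ m * x ∈ Λ0 →
      ∃ x0 z : F, x = x0 + t ^ s * z ∧ x0 ∈ Λ0 ∧ z ∈ Λoo ∧ v x0 < γ ∧ v z < γ := by
  have ht : t ≠ 0 := hG.ne_zero
  have hvt : v t = 1 := hG.v_t
  induction m with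
  | zero =>
    intro x hx hxm
    refine ⟨x, 0, by simp, by simpa using hxm, he'.zero_mem, hx, ?_⟩
    rw [map_zero]
    exact lt_of_le_of_lt zero_le hx
  | succ m ih =>
    intro x hx hxm
    have hγ : γ ≠ 0 := fun h => by
      rw [h] at hx
      exact not_lt_zero hx
    obtain ⟨a, ha⟩ := (he.2 _).1 hxm
    -- all coefficients of `a` are small
    have hva : v (comb L t a e) < γ := by
      rw [← ha, map_mul, map_pow, hvt, one_pow, one_mul]; exact hx
    have hcoef : ∀ i k, v (algebraMap L F ((a i).coeff k)) < γ := fun i =>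
      (hG.lt_iff (a i) γ hγ).1 ((heON.lt_iff a γ hγ).1 hva i)
    -- the two pieces
    set a₁ : Fin d → L[X] := fun i => divX (a i) with ha₁
    set a₀ : Fin d → L[X] := fun i => C ((a i).coeff 0) with ha₀
    have hsplit : comb L t a e = t * comb L t a₁ e + comb L t a₀ e := by
      have h1 : a = (fun i => X * a₁ i) + a₀ := by
        funext i
        simp only [Pi.add_apply, ha₁, ha₀]
        rw [mul_comm, divX_mul_X_add]
      conv_lhs => rw [h1]
      rw [comb_add, comb_smul, aeval_X]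
    have hv₁ : v (comb L t a₁ e) < γ := by
      refine (heON.lt_iff a₁ γ hγ).2 fun i => (hG.lt_iff _ γ hγ).2 fun k => ?_
      rw [ha₁, coeff_divX]
      exact hcoef i _
    have hv₀ : v (comb L t a₀ e) < γ := by
      refine (heON.lt_iff a₀ γ hγ).2 fun i => (hG.lt_iff _ γ hγ).2 fun k => ?_
      rw [ha₀, coeff_C]
      split_ifs
      · exact hcoef i 0
      · rw [map_zero, map_zero]; exact zero_lt_iff.2 hγ
    -- apply the induction hypothesis to `x' = t^(-m) comb a₁ e`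
    set x' : F := (t⁻¹) ^ m * comb L t a₁ e with hx'
    have hx'v : v x' < γ := by
      rw [hx', map_mul, map_pow, map_inv₀, hvt, inv_one, one_pow, one_mul]; exact hv₁
    have hx'm : t ^ m * x' ∈ Λ0 := by
      have : t ^ m * x' = comb L t a₁ e := by
        rw [hx', ← mul_assoc, ← mul_pow, mul_inv_cancel₀ ht, one_pow, one_mul]
      rw [this]
      exact he.comb_mem _
    obtain ⟨x0, z, hxz, hx0, hz, hvx0, hvz⟩ := ih x' hx'v hx'm
    -- the remainder
    set z' : F := (t⁻¹) ^ (m + 1) * ∑ i, algebraMap L F ((a i).coeff 0) * ((t⁻¹) ^ s * e i)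
      with hz'
    have hz'mem : z' ∈ Λoo :=
      he'.pow_mul_mem _ (he'.sum_mem _ _ fun i _ => he'.algebraMap_mul_mem _ (hs i))
    have hz'eq : t ^ s * z' = (t⁻¹) ^ (m + 1) * comb L t a₀ e := by
      have h1 : ∑ i, algebraMap L F ((a i).coeff 0) * ((t⁻¹) ^ s * e i)
          = (t⁻¹) ^ s * comb L t a₀ e := by
        rw [comb, Finset.mul_sum]
        refine Finset.sum_congr rfl fun i _ => ?_
        rw [ha₀, aeval_C]; ring
      rw [hz', h1]
      have h2 : t ^ s * (t⁻¹) ^ s = 1 := by rw [← mul_pow, mul_inv_cancel₀ ht, one_pow]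
      calc t ^ s * ((t⁻¹) ^ (m + 1) * ((t⁻¹) ^ s * comb L t a₀ e))
          = (t ^ s * (t⁻¹) ^ s) * ((t⁻¹) ^ (m + 1) * comb L t a₀ e) := by ring
        _ = _ := by rw [h2, one_mul]
    have hz'v : v z' < γ := by
      have : v z' = v (t ^ s * z') := by
        rw [map_mul v (t ^ s) z', map_pow, hvt, one_pow, one_mul]
      rw [this, hz'eq, map_mul, map_pow, map_inv₀, hvt, inv_one, one_pow, one_mul]
      exact hv₀
    refine ⟨x0, z + z', ?_, hx0, he'.add_mem hz hz'mem, hvx0, Valuation.map_add_lt v hvz hz'v⟩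
    have hx_eq : x = x' + (t⁻¹) ^ (m + 1) * comb L t a₀ e := by
      have h3 : x = (t⁻¹) ^ (m + 1) * (t ^ (m + 1) * x) := by
        rw [← mul_assoc, ← mul_pow, inv_mul_cancel₀ ht, one_pow, one_mul]
      rw [h3, ha, hsplit, hx', mul_add, pow_succ, ← mul_assoc, mul_assoc ((t⁻¹) ^ m) t⁻¹ t,
        inv_mul_cancel₀ ht, mul_one]
    rw [hx_eq, hxz, mul_add, hz'eq]
    ring

/-- **P7.**  PROOF.  `t^m x = comb a e`, all coefficients of the `a_i` have `v < γ` (`ON.lt_iff`, `Gauss.lt_iff`, `v t = 1`).  Split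
`a_i = X^m * hi_i + lo_i`, `deg lo_i < m` (`divX`/`modByMonic (X^m)` or coefficientwise).  `x0 = comb hi e`.
`t^(-m) lo_i(t) = ρ_i(1/t)` with `ρ_i = reflect m lo_i` (so `X ∣ ρ_i`).
`z = ∑ ρ_i(1/t) * ((t⁻¹)^s * e_i) ∈ Λoo` (`Λoo` is stable under `L[1/t]`-combinations because it has a basis),
`t^s z = t^(-m) comb lo e`, `v z = v (comb lo e) < γ`. -/
theorem split (hG : Gauss L v t) {d : ℕ} (Λ0 Λoo : Set F) (e e' : Fin d → F)
    (he : IsBasis L t e Λ0) (heON : ON L v t e) (he' : IsBasis L t⁻¹ e' Λoo)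
    (s : ℕ) (hs : ∀ i, (t⁻¹) ^ s * e i ∈ Λoo)
    (x : F) (γ : Γ₀) (hx : v x < γ) (hxm : ∃ m : ℕ, t ^ m * x ∈ Λ0) :
    ∃ x0 z : F, x = x0 + t ^ s * z ∧ x0 ∈ Λ0 ∧ z ∈ Λoo ∧ v x0 < γ ∧ v z < γ := by
  obtain ⟨m, hm⟩ := hxm
  exact split_aux hG Λ0 Λoo e e' he heON he' s hs γ m x hx hm

/-- a linear map between finite coordinate spaces is bounded. -/
theorem exists_bound_linearMap {ι κ : Type*} [Fintype ι] [Fintype κ]
    (S : (ι → L) →ₗ[L] (κ → L)) :
    ∃ C : Γ₀, C ≠ 0 ∧ ∀ (y : ι → L) (γ : Γ₀), γ ≠ 0 → (∀ i, v (algebraMap L F (y i)) < γ) →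
      ∀ k, v (algebraMap L F (S y k)) < C * γ := by
  classical
  obtain ⟨C₀, hC₀⟩ := Finset.exists_le
    ((Finset.univ : Finset (ι × κ)).image fun ik => v (algebraMap L F (S (Pi.single ik.1 1) ik.2)))
  refine ⟨max C₀ 1, (lt_of_lt_of_le zero_lt_one (le_max_right _ _)).ne', fun y γ hγ hy k => ?_⟩
  have hpos : (0 : Γ₀) < max C₀ 1 := lt_of_lt_of_le zero_lt_one (le_max_right _ _)
  have hSy : S y k = ∑ i, y i * S (Pi.single i 1) k := by
    have : y = ∑ i, y i • (Pi.single i 1 : ι → L) := by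
      funext j
      simp [Finset.sum_apply, Pi.single_apply]
    conv_lhs => rw [this]
    simp [map_sum, Finset.sum_apply]
  rw [hSy, map_sum]
  refine Valuation.map_sum_lt v (mul_ne_zero hpos.ne' hγ) fun i _ => ?_
  rw [map_mul, map_mul, mul_comm]
  refine mul_lt_mul_of_le_of_lt_of_nonneg_of_pos ?_ (hy i) zero_le hpos
  exact (hC₀ _ (Finset.mem_image.2 ⟨(i, k), Finset.mem_univ _, rfl⟩)).trans (le_max_left _ _)

/-! ### the degree bound -/

lemma comb_sub' {d : ℕ} (p p' : Fin d → L[X]) (e : Fin d → F) :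
    comb L t (p - p') e = comb L t p e - comb L t p' e := by
  simp [comb, sub_mul, Finset.sum_sub_distrib]

lemma IsBasis.comb_inj {d : ℕ} {e : Fin d → F} {S : Set F} (he : IsBasis L t e S)
    {p p' : Fin d → L[X]} (h : comb L t p e = comb L t p' e) : p = p' := by
  have := he.1 (p - p') (by rw [comb_sub', h, sub_self])
  exact sub_eq_zero.1 this

lemma aeval_inv_reflect_mul_pow (ht : t ≠ 0) (N : ℕ) (f : L[X]) (hf : f.natDegree ≤ N) :
    aeval t⁻¹ (reflect N f) * t ^ N = aeval t f := by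
  let _ : Invertible t := invertibleOfNonzero ht
  have := eval₂_reflect_mul_pow (algebraMap L F) t N f hf
  rw [invOf_eq_inv] at this
  simpa [aeval_def] using this

/-- degree bound: the `e'`-coordinates of `t^(-s) G`, `G ∈ Λ0 ∩ t^s Λoo`, have bounded degree.
PROOF. `(t⁻¹)^s₂ e_i = comb t⁻¹ (Q i) e'`.  If `G = comb t g e` then
`t^(-s) G = ∑_j (t^(s₂ - s) ∑_i g_i(t) Q_ij(1/t)) e'_j`, so by uniqueness of coordinates over `L(t)`
`h_j(1/t) = t^(s₂-s) ∑_i g_i(t) Q_ij(1/t)`, in which `t` occurs with exponents `≥ s₂ - s - max deg Q`.  (Multiply by a high power of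
`t` and compare polynomials, `Gauss.inj`.) -/
theorem exists_degree_bound (hG : Gauss L v t) {d : ℕ} (Λ0 Λoo : Set F) (e e' : Fin d → F)
    (he : IsBasis L t e Λ0) (he' : IsBasis L t⁻¹ e' Λoo)
    (s₂ : ℕ) (hs₂ : ∀ i, (t⁻¹) ^ s₂ * e i ∈ Λoo) (s : ℕ) :
    ∃ D : ℕ, ∀ h : Fin d → L[X], t ^ s * comb L t⁻¹ h e' ∈ Λ0 → ∀ j, (h j).natDegree ≤ D := by
  have ht : t ≠ 0 := hG.ne_zero
  have hQ : ∀ i, ∃ Q : Fin d → L[X], (t⁻¹) ^ s₂ * e i = comb L t⁻¹ Q e' := fun i =>
    (he'.2 _).1 (hs₂ i)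
  choose Q hQ using hQ
  set q : ℕ := Finset.univ.sup fun ij : Fin d × Fin d => (Q ij.1 ij.2).natDegree with hq
  have hqle : ∀ i j, (Q i j).natDegree ≤ q := fun i j =>
    Finset.le_sup (f := fun ij : Fin d × Fin d => (Q ij.1 ij.2).natDegree) (Finset.mem_univ (i, j))
  refine ⟨s + q, fun h hh j => ?_⟩
  obtain ⟨g, hg⟩ := (he.2 _).1 hh
  set N : ℕ := Finset.univ.sup fun i : Fin d => (g i).natDegree with hN
  have hNle : ∀ i, (g i).natDegree ≤ N := fun i =>
    Finset.le_sup (f := fun i : Fin d => (g i).natDegree) (Finset.mem_univ i)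
  set r : Fin d → L[X] := fun i => reflect N (g i) with hr
  have hrdeg : ∀ i, (r i).natDegree ≤ N := fun i =>
    natDegree_reflect_le.trans (max_le le_rfl (hNle i))
  have htu : ∀ m : ℕ, (t⁻¹) ^ m * t ^ m = 1 := fun m => by
    rw [← mul_pow, inv_mul_cancel₀ ht, one_pow]
  -- `comb t g e` in terms of `e'`
  have h1 : (t⁻¹) ^ (N + s₂) * comb L t g e
      = comb L t⁻¹ r (fun i => comb L t⁻¹ (Q i) e') := by
    rw [comb, comb, Finset.mul_sum]
    refine Finset.sum_congr rfl fun i _ => ?_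
    rw [← hQ i, ← aeval_inv_reflect_mul_pow ht N (g i) (hNle i), pow_add]
    calc (t⁻¹) ^ N * (t⁻¹) ^ s₂ * (aeval t⁻¹ (reflect N (g i)) * t ^ N * e i)
        = ((t⁻¹) ^ N * t ^ N) * (aeval t⁻¹ (reflect N (g i)) * ((t⁻¹) ^ s₂ * e i)) := by ring
      _ = _ := by rw [htu, one_mul]
  have h2 : comb L t⁻¹ (fun j => X ^ (N + s₂) * h j) e'
      = comb L t⁻¹ (fun j => X ^ s * Matrix.vecMul r (Matrix.of Q) j) e' := by
    have hcc : comb L t⁻¹ r (fun i => comb L t⁻¹ (Q i) e')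
        = comb L t⁻¹ (Matrix.vecMul r (Matrix.of Q)) e' := comb_comb r (Matrix.of Q) e'
    rw [comb_smul, comb_smul, ← hcc]
    simp only [map_pow, aeval_X]
    rw [← h1, ← hg]
    calc (t⁻¹) ^ (N + s₂) * comb L t⁻¹ h e'
        = ((t⁻¹) ^ s * t ^ s) * ((t⁻¹) ^ (N + s₂) * comb L t⁻¹ h e') := by rw [htu, one_mul]
      _ = _ := by ring
  have h3 := congrFun (he'.comb_inj h2) j
  by_cases hj : h j = 0
  · rw [hj]; simp
  have hdeg : (X ^ (N + s₂) * h j).natDegree = N + s₂ + (h j).natDegree := by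
    rw [natDegree_X_pow_mul _ hj, add_comm]
  have hdeg' : (X ^ s * Matrix.vecMul r (Matrix.of Q) j).natDegree ≤ s + (N + q) := by
    refine natDegree_mul_le.trans (add_le_add (natDegree_X_pow_le s) ?_)
    rw [Matrix.vecMul, dotProduct]
    refine natDegree_sum_le_of_forall_le _ _ fun i _ => ?_
    exact natDegree_mul_le.trans (add_le_add (hrdeg i) (hqle i j))
  rw [h3] at hdeg
  omega

/-! ### the polar part argument -/

section Global

variable (L) in
/-- coefficient vectors to polynomials. -/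
noncomputable def toPoly (d D : ℕ) : (Fin d × Fin (D + 1) → L) →ₗ[L] (Fin d → L[X]) :=
  LinearMap.pi fun j => ∑ k : Fin (D + 1), (monomial (k : ℕ)).comp (LinearMap.proj (j, k))

lemma coeff_toPoly (d D : ℕ) (c : Fin d × Fin (D + 1) → L) (j : Fin d) (m : ℕ) :
    (toPoly L d D c j).coeff m = if h : m < D + 1 then c (j, ⟨m, h⟩) else 0 := by
  simp only [toPoly, LinearMap.pi_apply, LinearMap.sum_apply, LinearMap.comp_apply,
    LinearMap.proj_apply, finsetSum_coeff, coeff_monomial]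
  split_ifs with h
  · rw [Finset.sum_eq_single (⟨m, h⟩ : Fin (D + 1))]
    · simp
    · intro b _ hb
      rw [if_neg]
      intro hbm
      exact hb (Fin.ext hbm)
    · intro hb; exact absurd (Finset.mem_univ _) hb
  · refine Finset.sum_eq_zero fun b _ => ?_
    rw [if_neg]
    intro hbm
    exact h (hbm ▸ b.2)

lemma toPoly_of_natDegree_le (d D : ℕ) (h : Fin d → L[X]) (hh : ∀ j, (h j).natDegree ≤ D) :
    toPoly L d D (fun jk => (h jk.1).coeff jk.2) = h := by
  funext j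
  ext m
  rw [coeff_toPoly]
  split_ifs with hm
  · rfl
  · exact (coeff_eq_zero_of_natDegree_lt (lt_of_le_of_lt (hh j) (by omega))).symm

lemma comb_smul_const {d : ℕ} (c : L) (p : Fin d → L[X]) (e : Fin d → F) :
    comb L t (c • p) e = algebraMap L F c * comb L t p e := by
  have : c • p = fun i => C c * p i := by
    funext i; simp [smul_eq_C_mul]
  rw [this, comb_smul, aeval_C]

/-- **P8.**  PROOF.  Suppose `Λ0 ∩ Λoo = {0}`.  Let `D` be as in `exists_degree_bound`,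
`W' = {h : Fin d → degreeLT/coefficient vectors of degree ≤ D | t^s comb t⁻¹ h e' ∈ Λ0}`, an `L`-subspace of `L^(d(D+1))`, and
`Pol : W' → L^(d s)` the coefficients of index `< s`.  `Pol h = 0` means `X^s ∣ h_j`, i.e. `t^s comb t⁻¹ h e' ∈ Λoo`; so `Pol` is injective, has a
left inverse (`LinearMap.exists_leftInverse_of_injective`), which composed with the inclusion is bounded by `C` (`exists_bound_linearMap`).  Apply the hypothesis with
`γ = C⁻¹`: `t^(-s) G = comb t⁻¹ (X^s g' + ζ) e'`, the coefficients of index `< s` are those of `ζ`, of `v < γ`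
(`ON`, `Gauss.inv`); so all coefficients of `h` have `v < C γ = 1`, so `v G < 1`: contradiction. -/
theorem exists_global (hG : Gauss L v t) {d : ℕ} (Λ0 Λoo : Set F) (e e' : Fin d → F)
    (he : IsBasis L t e Λ0) (he' : IsBasis L t⁻¹ e' Λoo) (he'ON : ON L v t⁻¹ e')
    (s₂ : ℕ) (hs₂ : ∀ i, (t⁻¹) ^ s₂ * e i ∈ Λoo) (s : ℕ)
    (hyp : ∀ γ : Γ₀, γ ≠ 0 → ∃ G Goo z : F, G ∈ Λ0 ∧ Goo ∈ Λoo ∧ z ∈ Λoo ∧ G = Goo + t ^ s * z ∧
      v z < γ ∧ v G = 1) :
    ∃ y : F, y ≠ 0 ∧ y ∈ Λ0 ∧ y ∈ Λoo := by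
  by_contra hcon
  push Not at hcon
  have ht : t ≠ 0 := hG.ne_zero
  have hvt : v t = 1 := hG.v_t
  have htu : ∀ m : ℕ, t ^ m * (t⁻¹) ^ m = 1 := fun m => by
    rw [← mul_pow, mul_inv_cancel₀ ht, one_pow]
  obtain ⟨D, hD⟩ := exists_degree_bound hG Λ0 Λoo e e' he he' s₂ hs₂ s
  -- the subspace `W`
  let W : Submodule L (Fin d × Fin (D + 1) → L) :=
    { carrier := {c | t ^ s * comb L t⁻¹ (toPoly L d D c) e' ∈ Λ0}
      add_mem' := fun {a b} ha hb => by
        simp only [Set.mem_ofPred_eq] at ha hb ⊢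
        rw [map_add, comb_add, mul_add]
        exact he.add_mem ha hb
      zero_mem' := by
        simp only [Set.mem_ofPred_eq]
        rw [map_zero, comb_zero', mul_zero]
        exact he.zero_mem
      smul_mem' := fun c a ha => by
        simp only [Set.mem_ofPred_eq] at ha ⊢
        rw [map_smul, comb_smul_const, mul_left_comm]
        exact he.algebraMap_mul_mem c ha }
  have hWmem : ∀ c, c ∈ W ↔ t ^ s * comb L t⁻¹ (toPoly L d D c) e' ∈ Λ0 := fun c => Iff.rfl
  -- the polar part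
  let Pol : (Fin d × Fin (D + 1) → L) →ₗ[L] (Fin d × Fin s → L) :=
    LinearMap.pi fun jk => (lcoeff L (jk.2 : ℕ)).comp ((LinearMap.proj jk.1).comp (toPoly L d D))
  have hPol : ∀ c jk, Pol c jk = (toPoly L d D c jk.1).coeff (jk.2 : ℕ) := fun c jk => rfl
  have hinj : LinearMap.ker (Pol.domRestrict W) = ⊥ := by
    rw [LinearMap.ker_eq_bot']
    rintro ⟨c, hc⟩ hc0
    rw [LinearMap.domRestrict_apply] at hc0
    have hdvd : ∀ j, X ^ s ∣ toPoly L d D c j := fun j => by
      rw [X_pow_dvd_iff]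
      intro k hk
      have := congrFun hc0 (j, ⟨k, hk⟩)
      rwa [hPol] at this
    choose h' hh' using hdvd
    have e1 : t ^ s * comb L t⁻¹ (toPoly L d D c) e' = comb L t⁻¹ h' e' := by
      have : toPoly L d D c = fun j => X ^ s * h' j := funext hh'
      rw [this, comb_smul, map_pow, aeval_X, ← mul_assoc, htu, one_mul]
    have e2 : comb L t⁻¹ h' e' = 0 := by
      by_contra hne
      exact hcon _ hne (e1 ▸ (hWmem c).1 hc) (he'.comb_mem h')
    have e3 : h' = 0 := he'.1 h' e2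
    have e4 : c = 0 := by
      funext jk
      obtain ⟨j, k⟩ := jk
      have := coeff_toPoly d D c j (k : ℕ)
      rw [dif_pos k.2, hh' j, e3] at this
      simpa using this.symm
    exact Subtype.ext e4
  obtain ⟨g, hg⟩ := LinearMap.exists_leftInverse_of_injective (Pol.domRestrict W) hinj
  obtain ⟨C, hC0, hC⟩ := exists_bound_linearMap (v := v) (W.subtype.comp g)
  have hγ : C⁻¹ ≠ 0 := inv_ne_zero hC0
  obtain ⟨G, Goo, z, hGmem, hGoo, hz, hGeq, hvz, hvG⟩ := hyp C⁻¹ hγ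
  obtain ⟨g', rfl⟩ := (he'.2 _).1 hGoo
  obtain ⟨ζ, rfl⟩ := (he'.2 _).1 hz
  set h : Fin d → L[X] := (fun j => X ^ s * g' j) + ζ with hh
  have hGh : t ^ s * comb L t⁻¹ h e' = G := by
    rw [hh, comb_add, comb_smul, map_pow, aeval_X, mul_add, ← mul_assoc, htu, one_mul, hGeq]
  have hdeg : ∀ j, (h j).natDegree ≤ D := hD h (hGh ▸ hGmem)
  set c : Fin d × Fin (D + 1) → L := fun jk => (h jk.1).coeff jk.2 with hc
  have hcP : toPoly L d D c = h := toPoly_of_natDegree_le d D h hdeg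
  have hcW : c ∈ W := by
    rw [hWmem, hcP, hGh]; exact hGmem
  have hsmall : ∀ jk, v (algebraMap L F (Pol c jk)) < C⁻¹ := by
    rintro ⟨j, k⟩
    rw [hPol, hcP, hh]
    simp only [Pi.add_apply, coeff_add]
    rw [coeff_X_pow_mul', if_neg (by have := k.2; omega), zero_add]
    exact (hG.inv.lt_iff (ζ j) C⁻¹ hγ).1 ((he'ON.lt_iff ζ C⁻¹ hγ).1 hvz j) _
  have hSc : (W.subtype.comp g) (Pol c) = c := by
    have := LinearMap.congr_fun hg ⟨c, hcW⟩
    simp only [LinearMap.comp_apply, LinearMap.domRestrict_apply, LinearMap.id_apply] at this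
    simp only [LinearMap.comp_apply, Submodule.subtype_apply]
    rw [this]
  have hall : ∀ jk, v (algebraMap L F (c jk)) < 1 := fun jk => by
    have := hC (Pol c) C⁻¹ hγ hsmall jk
    rwa [hSc, mul_inv_cancel₀ hC0] at this
  have hvh : v (comb L t⁻¹ h e') < 1 := by
    refine (he'ON.lt_iff h 1 one_ne_zero).2 fun j => (hG.inv.lt_iff _ 1 one_ne_zero).2 fun m => ?_
    by_cases hm : m < D + 1
    · exact hall (j, ⟨m, hm⟩)
    · rw [coeff_eq_zero_of_natDegree_lt (lt_of_le_of_lt (hdeg j) (by omega)), map_zero, map_zero]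
      exact zero_lt_one
  rw [← hGh, map_mul, map_pow, hvt, one_pow, one_mul] at hvG
  exact absurd hvG hvh.ne

end Global

end Fermat.Agent.GAL.KL
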