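import Fermat.Agent.GAL.KL.NearOne
import Fermat.Agent.GAL.KL.Newton
import Fermat.Agent.GAL.KL.Split
import Fermat.Agent.GAL.KL.Const

/-!
# GAL / KL : the key lemma K (assembly)
-/

set_option autoImplicit false

namespace Fermat.Agent.GAL.KL

open Polynomial

variable {L F Γ₀ : Type*} [Field L] [Field F] [Algebra L F] [LinearOrderedCommGroupWithZero Γ₀]
variable {v : Valuation F Γ₀} {t : F}

theorem v_eq_one_of_sub_one_lt {x : F} (h : v (x - 1) < 1) : v x = 1 := by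
  have h1 : v (x - 1) < v (1 : F) := by rwa [map_one]
  have := Valuation.map_add_eq_of_lt_left v h1
  rw [add_sub_cancel, map_one] at this
  exact this

/-- **KEY LEMMA K**, with given bases of the two chart rings. -/
theorem keyLemma_of_bases [IsAlgClosed L] (hA : Arch v) (hG : Gauss L v t) {d : ℕ} (β : Fin d → F)
    (hβ : ON L v t β) (hβs : Spans L t β)
    (b0 : Fin d → F) (hb0 : IsBasis L t b0 (BB L t))
    (boo : Fin d → F) (hboo : IsBasis L t⁻¹ boo (BB L t⁻¹))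
    {n : ℕ} (hn : 0 < n) (hvn : v (n : F) = 1)
    (hr0 : RootClosed L v t n) (hroo : RootClosed L v t⁻¹ n)
    {w : F} (hw : v (w - 1) < 1)
    (hU0 : ∀ c : L, LocPow L t n w c) (hUoo : ∀ c : L, LocPow L t⁻¹ n w c) :
    ∃ y : F, y ^ n = w := by
  have ht : t ≠ 0 := hG.ne_zero
  have hvt : v t = 1 := hG.v_t
  have hGi : Gauss L v t⁻¹ := hG.inv
  have hβi : ON L v t⁻¹ β := hβ.inv hG
  have hβsi : Spans L t⁻¹ β := hβs.inv ht
  have hvw : v w = 1 := v_eq_one_of_sub_one_lt hw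
  have hw0 : w ≠ 0 := fun h => by rw [h, map_zero] at hvw; exact zero_ne_one hvw
  -- orthonormal bases of the two lattices
  obtain ⟨a, ha⟩ := exists_basis_II hG.inj β hβs b0 hb0 hn hw0
  obtain ⟨e, he, heON⟩ := exists_ON_basis hG β hβ hβs _ a ha
  obtain ⟨a', ha'⟩ := exists_basis_II hGi.inj β hβsi boo hboo hn hw0
  obtain ⟨e', he', he'ON⟩ := exists_ON_basis hGi β hβi hβsi _ a' ha'
  -- shifts
  have hemem : ∀ i, e i ∈ II L t n w := fun i =>
    (he.2 (e i)).mpr ⟨Pi.single i 1, by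
      simp [comb, Pi.single_apply, Finset.sum_ite_eq']⟩
  have hshift : ∃ s : ℕ, ∀ i, (t⁻¹) ^ s * e i ∈ II L t⁻¹ n w := by
    have h1 : ∀ i, ∃ m₀ : ℕ, ∀ m, m₀ ≤ m → (t⁻¹) ^ m * e i ∈ II L t⁻¹ n w := fun i =>
      II.shift (t := t⁻¹) (inv_ne_zero ht) hn (by rw [inv_inv]; exact hemem i)
    choose m₀ hm₀ using h1
    exact ⟨Finset.univ.sup m₀, fun i => hm₀ i _ (Finset.le_sup (Finset.mem_univ i))⟩
  obtain ⟨s, hs⟩ := hshift
  -- approximate roots in both charts
  obtain ⟨g0, hg0, hg01⟩ := exists_near_one hG β hβ hβs b0 hb0 hn hw hr0 hU0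
  obtain ⟨goo, hgoo, hgoo1⟩ := exists_near_one hGi β hβi hβsi boo hboo hn hw hroo hUoo
  -- a global section
  obtain ⟨y, hy0, hy1, hy2⟩ := exists_global hG (II L t n w) (II L t⁻¹ n w) e e' he he' he'ON s hs s
    (by
      intro γ hγ
      obtain ⟨G0, hG0, hG0γ, hG01⟩ := newton hA hvn hg0 hg01 hw (min γ 1)
        (by rcases min_choice γ 1 with h | h <;> rw [h]; exacts [hγ, one_ne_zero])
      obtain ⟨Goo, hGoo, hGooγ, hGoo1⟩ := newton hA hvn hgoo hgoo1 hw (min γ 1)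
        (by rcases min_choice γ 1 with h | h <;> rw [h]; exacts [hγ, one_ne_zero])
      have hclose : v (G0 - Goo) < min γ 1 :=
        close_of_pow_close hvn hw hG01 hGoo1 _ hG0γ hGooγ
      have hxm : ∃ m : ℕ, t ^ m * (G0 - Goo) ∈ II L t n w := by
        obtain ⟨m₀, hm₀⟩ := II.shift ht hn hGoo
        refine ⟨m₀, ?_⟩
        rw [mul_sub]
        refine II.sub hn (II.mul ?_ hG0) (hm₀ m₀ le_rfl)
        have := IsInt.aeval (L := L) (t := t) (X ^ m₀)
        simpa using this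
      obtain ⟨x0, z, hxz, hx0, hz, hvx0, hvz⟩ :=
        split hG (II L t n w) (II L t⁻¹ n w) e e' he heON he' s hs (G0 - Goo) _ hclose hxm
      refine ⟨G0 - x0, Goo, z, II.sub hn hG0 hx0, hGoo, hz, ?_, lt_of_lt_of_le hvz (min_le_left _ _), ?_⟩
      · rw [sub_eq_iff_eq_add] at hxz
        rw [hxz]; ring
      · apply v_eq_one_of_sub_one_lt
        have h1 : G0 - x0 - 1 = (G0 - 1) - x0 := by ring
        rw [h1]
        exact lt_of_le_of_lt (Valuation.map_sub v _ _)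
          (max_lt hG01 (lt_of_lt_of_le hvx0 (min_le_right _ _))))
  -- conclusion
  obtain ⟨c, hc⟩ := const_of_isInt_both hG.inj hy1 hy2
  have hc0 : c ≠ 0 := by
    rintro rfl
    rw [map_zero] at hc
    exact (mul_ne_zero (pow_ne_zero n hy0) hw0) hc
  obtain ⟨c₁, hc₁⟩ := IsAlgClosed.exists_pow_nat_eq c hn
  have hc₁0 : c₁ ≠ 0 := by
    rintro rfl
    rw [zero_pow hn.ne'] at hc₁
    exact hc0 hc₁.symm
  refine ⟨algebraMap L F c₁ / y, ?_⟩
  rw [div_pow, ← map_pow, hc₁, ← hc]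
  field_simp

/-- **KEY LEMMA K.**  `L` algebraically closed of characteristic zero, `v` a rank one valuation on `F` which is
the Gauss valuation on `L[t]`, `β` an orthonormal `L(t)`-basis of `F`; both reduced charts are `n`-root closed; `w ≡ 1` and
`n ∣ div w`.  Then `w` is an `n`-th power in `F`. -/
theorem keyLemma [IsAlgClosed L] [CharZero L] (hA : Arch v) (hG : Gauss L v t) {d : ℕ}
    (β : Fin d → F) (hβ : ON L v t β) (hβs : Spans L t β)
    {n : ℕ} (hn : 0 < n) (hvn : v (n : F) = 1)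
    (hr0 : RootClosed L v t n) (hroo : RootClosed L v t⁻¹ n)
    {w : F} (hw : v (w - 1) < 1)
    (hU0 : ∀ c : L, LocPow L t n w c) (hUoo : ∀ c : L, LocPow L t⁻¹ n w c) :
    ∃ y : F, y ^ n = w := by
  obtain ⟨b0, hb0⟩ := exists_basis_BB hG.inj β (hβ.inj hG) hβs
  obtain ⟨boo, hboo⟩ := exists_basis_BB hG.inv.inj β ((hβ.inv hG).inj hG.inv) (hβs.inv hG.ne_zero)
  exact keyLemma_of_bases hA hG β hβ hβs b0 hb0 boo hboo hn hvn hr0 hroo hw hU0 hUoo

end Fermat.Agent.GAL.KL
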