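import Mathlib

/-!
# GAL / KL : the key lemma K (abstract form).  Definitions.

`L` algebraically closed field, `F` a field extension, `v` a valuation on `F`, `t : F` a parameter.
Everything is phrased with explicit polynomials `p : L[X]` evaluated at `t` (`aeval t p`), so that the
two charts `t` and `t⁻¹` can be used at the same time without any instance clash.
-/

set_option autoImplicit false

namespace Fermat.Agent.GAL.KL

open Polynomial

variable (L : Type*) {F Γ₀ : Type*} [Field L] [Field F] [Algebra L F]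
  [LinearOrderedCommGroupWithZero Γ₀]

/-- `∑ i, p i (t) * e i`. -/
noncomputable def comb (t : F) {d : ℕ} (p : Fin d → L[X]) (e : Fin d → F) : F :=
  ∑ i, aeval t (p i) * e i

/-- `v` restricted to `L[t]` is the Gauss valuation: `v (p(t)) = max_i v (p_i)`. -/
def Gauss (v : Valuation F Γ₀) (t : F) : Prop :=
  ∀ (p : L[X]) (γ : Γ₀), v (aeval t p) ≤ γ ↔ ∀ i, v (algebraMap L F (p.coeff i)) ≤ γ

/-- the family `e` is orthonormal over `L[t]`: `v (∑ p_i(t) e_i) = max_i v (p_i(t))`. -/
def ON (v : Valuation F Γ₀) (t : F) {d : ℕ} (e : Fin d → F) : Prop :=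
  ∀ (p : Fin d → L[X]) (γ : Γ₀), v (comb L t p e) ≤ γ ↔ ∀ i, v (aeval t (p i)) ≤ γ

/-- the family `e` spans `F` over `L(t)`. -/
def Spans (t : F) {d : ℕ} (e : Fin d → F) : Prop :=
  ∀ x : F, ∃ (q : L[X]) (p : Fin d → L[X]), q ≠ 0 ∧ aeval t q * x = comb L t p e

/-- `e` is an `L[t]`-basis of the subset `S` of `F`. -/
def IsBasis (t : F) {d : ℕ} (e : Fin d → F) (S : Set F) : Prop :=
  (∀ p : Fin d → L[X], comb L t p e = 0 → p = 0) ∧ ∀ x, x ∈ S ↔ ∃ p : Fin d → L[X], x = comb L t p e

/-- `x` is integral over `L[t]`. -/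
def IsInt (t x : F) : Prop := ((aeval t : L[X] →ₐ[L] F) : L[X] →+* F).IsIntegralElem x

/-- the chart ring `B_t` = integral closure of `L[t]` in `F`. -/
def BB (t : F) : Set F := {x | IsInt L t x}

/-- the lattice `I_t(w) = {x | x ^ n * w ∈ B_t}` (sections of `O(D)`, `n D = div w`, on the chart). -/
def II (t : F) (n : ℕ) (w : F) : Set F := {x | IsInt L t (x ^ n * w)}

/-- `B_t ∩ O_v` mod `m_v` is closed under `n`-th roots (consequence of normality of the reduced chart). -/
def RootClosed (v : Valuation F Γ₀) (t : F) (n : ℕ) : Prop :=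
  ∀ x b : F, IsInt L t b → v (x ^ n - b) < 1 → v x ≤ 1 → ∃ b' : F, IsInt L t b' ∧ v (x - b') < 1

/-- local certificate for `n ∣ ord_P w` at all places `P` of the chart over `t = c`. -/
def LocPow (t : F) (n : ℕ) (w : F) (c : L) : Prop :=
  ∃ (z : F) (q : L[X]), z ≠ 0 ∧ q.eval c ≠ 0 ∧ IsInt L t (aeval t q * (z ^ n * w)) ∧
    IsInt L t (aeval t q * (z ^ n * w)⁻¹)

/-- the value group is archimedean (rank one). -/
def Arch (v : Valuation F Γ₀) : Prop :=
  ∀ x : F, v x < 1 → ∀ γ : Γ₀, γ ≠ 0 → ∃ m : ℕ, v x ^ m < γ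

end Fermat.Agent.GAL.KL
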