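import Fermat.Agent.GAL.KL.Reflect

/-!
# GAL / KL / P1a : basic API for `comb`, `Gauss`, `ON`, `Spans`
-/

set_option autoImplicit false

namespace Fermat.Agent.GAL.KL

open Polynomial

variable {L F Γ₀ : Type*} [Field L] [Field F] [Algebra L F] [LinearOrderedCommGroupWithZero Γ₀]
variable {v : Valuation F Γ₀} {t : F}

/-! ### `comb` -/

theorem comb_add {d : ℕ} (p p' : Fin d → L[X]) (e : Fin d → F) :
    comb L t (p + p') e = comb L t p e + comb L t p' e := by
  simp only [comb, Pi.add_apply, map_add, add_mul, Finset.sum_add_distrib]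

theorem comb_smul {d : ℕ} (q : L[X]) (p : Fin d → L[X]) (e : Fin d → F) :
    comb L t (fun i => q * p i) e = aeval t q * comb L t p e := by
  simp only [comb, map_mul, Finset.mul_sum, mul_assoc]

/-- `comb` of `comb`: matrix product. -/
theorem comb_comb {d : ℕ} (p : Fin d → L[X]) (P : Matrix (Fin d) (Fin d) L[X]) (e : Fin d → F) :
    comb L t p (fun i => comb L t (P i) e) = comb L t (Matrix.vecMul p P) e := by
  simp only [comb, Matrix.vecMul, dotProduct, map_sum, map_mul, Finset.mul_sum, Finset.sum_mul]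
  rw [Finset.sum_comm]
  simp only [mul_assoc]

/-- a finite family of values `< γ` is bounded by some `δ < γ`. -/
theorem exists_lt_bound {ι : Type*} (s : Finset ι) (a : ι → Γ₀) (γ : Γ₀) (hγ : γ ≠ 0)
    (h : ∀ i ∈ s, a i < γ) : ∃ δ, δ < γ ∧ ∀ i ∈ s, a i ≤ δ := by
  rcases s.eq_empty_or_nonempty with rfl | hs
  · exact ⟨0, zero_lt_iff.mpr hγ, fun i hi => absurd hi (Finset.notMem_empty i)⟩
  · obtain ⟨i, hi, hmax⟩ := Finset.exists_max_image s a hs
    exact ⟨a i, h i hi, hmax⟩

/-! ### Gauss -/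

theorem Gauss.v_t (hG : Gauss L v t) : v t = 1 := by
  have h := hG X
  simp only [aeval_X] at h
  apply le_antisymm
  · rw [h]
    intro i
    rw [coeff_X]
    split_ifs
    · rw [map_one, map_one]
    · rw [map_zero, map_zero]; exact zero_le
  · have h1 := (h (v t)).mp le_rfl 1
    rwa [coeff_X_one, map_one, map_one] at h1

theorem Gauss.ne_zero (hG : Gauss L v t) : t ≠ 0 := by
  intro h
  have h1 := hG.v_t
  rw [h, map_zero] at h1
  exact zero_ne_one h1

/-- `t` is transcendental over `L`. -/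
theorem Gauss.inj (hG : Gauss L v t) (p : L[X]) (h : aeval t p = 0) : p = 0 := by
  have h1 := (hG p 0).mp (by rw [h, map_zero])
  ext i
  have h2 := h1 i
  rw [le_zero_iff, map_eq_zero, map_eq_zero] at h2
  rw [h2, coeff_zero]

/-- the value of `p(t)` is the value of one of the coefficients. -/
theorem Gauss.exists_coeff (hG : Gauss L v t) (p : L[X]) :
    ∃ i : ℕ, v (aeval t p) = v (algebraMap L F (p.coeff i)) := by
  obtain ⟨i, -, hmax⟩ := Finset.exists_max_image (Finset.range (p.natDegree + 1))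
    (fun i => v (algebraMap L F (p.coeff i))) ⟨0, Finset.mem_range.mpr (Nat.succ_pos _)⟩
  refine ⟨i, le_antisymm ?_ ((hG p _).mp le_rfl i)⟩
  rw [hG]
  intro j
  by_cases hj : j ∈ Finset.range (p.natDegree + 1)
  · exact hmax j hj
  · rw [Finset.mem_range, not_lt] at hj
    rw [coeff_eq_zero_of_natDegree_lt hj, map_zero, map_zero]
    exact zero_le

theorem Gauss.lt_iff (hG : Gauss L v t) (p : L[X]) (γ : Γ₀) (hγ : γ ≠ 0) :
    v (aeval t p) < γ ↔ ∀ i, v (algebraMap L F (p.coeff i)) < γ := by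
  constructor
  · intro h i
    exact lt_of_le_of_lt ((hG p _).mp le_rfl i) h
  · intro h
    obtain ⟨i, hi⟩ := hG.exists_coeff p
    rw [hi]
    exact h i

/-- every value of `L[t]` is a value of `L`. -/
theorem Gauss.exists_const (hG : Gauss L v t) (p : L[X]) :
    ∃ a : L, v (aeval t p) = v (algebraMap L F a) := by
  obtain ⟨i, hi⟩ := hG.exists_coeff p
  exact ⟨_, hi⟩

theorem Gauss.v_aeval_inv (hG : Gauss L v t) (N : ℕ) (p : L[X]) (hp : p.natDegree ≤ N) :
    v (aeval t⁻¹ p) = v (aeval t (reflect N p)) := by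
  rw [aeval_inv_eq hG.ne_zero N p hp, map_mul, map_pow, map_inv₀, hG.v_t, inv_one, one_pow,
    one_mul]

/-- use `p(1/t) = t^{-N} (reflect N p)(t)`. -/
theorem Gauss.inv (hG : Gauss L v t) : Gauss L v t⁻¹ := by
  intro p γ
  rw [hG.v_aeval_inv p.natDegree p le_rfl, hG]
  constructor
  · intro h i
    have h1 := h (revAt p.natDegree i)
    rwa [coeff_reflect, revAt_invol] at h1
  · intro h i
    rw [coeff_reflect]
    exact h _

/-! ### orthonormal families -/

theorem ON.inj (hG : Gauss L v t) {d : ℕ} {e : Fin d → F} (he : ON L v t e)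
    (p : Fin d → L[X]) (h : comb L t p e = 0) : p = 0 := by
  have h1 := (he p 0).mp (by rw [h, map_zero])
  funext i
  have h2 := h1 i
  rw [le_zero_iff, map_eq_zero] at h2
  exact hG.inj _ h2

theorem ON.lt_iff {d : ℕ} {e : Fin d → F} (he : ON L v t e)
    (p : Fin d → L[X]) (γ : Γ₀) (hγ : γ ≠ 0) :
    v (comb L t p e) < γ ↔ ∀ i, v (aeval t (p i)) < γ := by
  constructor
  · intro h i
    exact lt_of_le_of_lt ((he p _).mp le_rfl i) h
  · intro h
    obtain ⟨δ, hδ, hb⟩ := exists_lt_bound Finset.univ (fun i => v (aeval t (p i))) γ hγ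
      (fun i _ => h i)
    exact lt_of_le_of_lt ((he p δ).mpr fun i => hb i (Finset.mem_univ i)) hδ

theorem comb_single {d : ℕ} (e : Fin d → F) (i : Fin d) (q : L[X]) :
    comb L t (Pi.single i q) e = aeval t q * e i := by
  classical
  rw [comb, Finset.sum_eq_single i]
  · rw [Pi.single_eq_same]
  · intro j _ hj
    rw [Pi.single_eq_of_ne hj, map_zero, zero_mul]
  · intro h
    exact absurd (Finset.mem_univ i) h

theorem ON.v_eq_one {d : ℕ} {e : Fin d → F} (he : ON L v t e) (i : Fin d) : v (e i) = 1 := by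
  classical
  have h := he (Pi.single i 1)
  rw [comb_single, map_one, one_mul] at h
  apply le_antisymm
  · rw [h]
    intro j
    by_cases hj : j = i
    · subst hj
      rw [Pi.single_eq_same, map_one, map_one]
    · rw [Pi.single_eq_of_ne hj, map_zero, map_zero]
      exact zero_le
  · have h1 := (h (v (e i))).mp le_rfl i
    rwa [Pi.single_eq_same, map_one, map_one] at h1

theorem comb_inv_eq (ht : t ≠ 0) {d : ℕ} (N : ℕ) (p : Fin d → L[X])
    (hp : ∀ i, (p i).natDegree ≤ N) (e : Fin d → F) :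
    comb L t⁻¹ p e = (t⁻¹) ^ N * comb L t (fun i => reflect N (p i)) e := by
  simp only [comb, Finset.mul_sum]
  refine Finset.sum_congr rfl fun i _ => ?_
  rw [aeval_inv_eq ht N (p i) (hp i), mul_assoc]

theorem comb_inv_reflect (ht : t ≠ 0) {d : ℕ} (N : ℕ) (p : Fin d → L[X])
    (hp : ∀ i, (p i).natDegree ≤ N) (e : Fin d → F) :
    comb L t⁻¹ (fun i => reflect N (p i)) e = (t⁻¹) ^ N * comb L t p e := by
  simp only [comb, Finset.mul_sum]
  refine Finset.sum_congr rfl fun i _ => ?_
  rw [aeval_inv_reflect ht N (p i) (hp i), mul_assoc]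

theorem ON.inv (hG : Gauss L v t) {d : ℕ} {e : Fin d → F} (he : ON L v t e) : ON L v t⁻¹ e := by
  intro p γ
  set N := Finset.univ.sup fun i => (p i).natDegree with hN
  have hp : ∀ i, (p i).natDegree ≤ N := fun i =>
    Finset.le_sup (f := fun i => (p i).natDegree) (Finset.mem_univ i)
  rw [comb_inv_eq hG.ne_zero N p hp, map_mul, map_pow, map_inv₀, hG.v_t, inv_one, one_pow,
    one_mul, he]
  refine forall_congr' fun i => ?_
  rw [hG.v_aeval_inv N (p i) (hp i)]

theorem Spans.inv (ht : t ≠ 0) {d : ℕ} {e : Fin d → F} (he : Spans L t e) : Spans L t⁻¹ e := by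
  intro x
  obtain ⟨q, p, hq, h⟩ := he x
  set N := max q.natDegree (Finset.univ.sup fun i => (p i).natDegree) with hN
  have hp : ∀ i, (p i).natDegree ≤ N := fun i =>
    le_trans (Finset.le_sup (f := fun i => (p i).natDegree) (Finset.mem_univ i))
      (le_max_right _ _)
  refine ⟨reflect N q, fun i => reflect N (p i), ?_, ?_⟩
  · rwa [Ne, reflect_eq_zero_iff]
  · rw [aeval_inv_reflect ht N q (le_max_left _ _), comb_inv_reflect ht N p hp, mul_assoc, h]

end Fermat.Agent.GAL.KL
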