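import Fermat.Agent.GAL.KL.LatticeA

/-!
# GAL / KL / P4 : the index of `I_t(w)` in `B_t`:  `[B : I]^n * N(w)` is a nonzero constant

Notation: `K = L(t)`, `δ = det P / q^d` (= determinant of the basis `e` of `I` in the basis `b` of `B`),
`N(w) = det W / r^d` (= norm of `w`).  CLAIM: `ρ := δ^n N(w) ∈ L^×`.

PROOF.  It is enough to show: for every `c : L` there is `g : L[X]` with `g(c) ≠ 0` and `g ρ, g ρ⁻¹ ∈ L[X]`
(then numerator and denominator of `ρ` have no root, `L` is algebraically closed).  Fix `c` and take `z, g₀` from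
`LocPow`, `u = z^n w`, so `g₀ u, g₀ u⁻¹ ∈ B`.
(1) `g₀ z B ⊆ I` (`(g₀ z b)^n w = g₀^(n-1) b^n (g₀ u)`) and `g₀ z⁻¹ I ⊆ B` (`(g₀ x / z)^n = g₀^(n-1) (x^n w)(g₀ u⁻¹)`,
`IsInt.of_pow`).
(2) if a lattice with basis `a'` is contained in the lattice with basis `a` the determinant of `a'` in `a` is a polynomial; the
determinant of `x • a` in `a` is `N(x)`; determinants are multiplicative.  Hence `g₀^d N(z) δ⁻¹` and `g₀^d N(z)⁻¹ δ` are
polynomials.
(3) `N(g₀ u) = g₀^d N(u)` and `g₀^d N(u)⁻¹` are polynomials (the matrix of multiplication by an element of `B` in the basis `b` has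
polynomial entries).
(4) `ρ = (δ / N(z))^n N(u)`; take `g = g₀^(d n + d)`.
Suggested set-up: `letI : Algebra L[X] F := (aeval t).toAlgebra`, `K := FractionRing L[X]` (or `RatFunc L`) acting on `F`, `b` as a
`Basis (Fin d) K F`, `Basis.toMatrix`, `Basis.det`, `Algebra.norm`, `Algebra.leftMulMatrix`.  Or stay with polynomial matrices and
common denominators (`exists_matrix_of_bases`).
-/

set_option autoImplicit false

namespace Fermat.Agent.GAL.KL

open Polynomial

variable {L F : Type*} [Field L] [Field F] [Algebra L F] {t : F}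

namespace Index

/-! ### relations between families with polynomial matrices -/

/-- `s(t) x_i = ∑_j A_ij(t) a_j`. -/
def Rel (t : F) {d : ℕ} (s : L[X]) (x : Fin d → F) (A : Matrix (Fin d) (Fin d) L[X])
    (a : Fin d → F) : Prop :=
  ∀ i, aeval t s * x i = comb L t (A i) a

theorem comb_mul_left {d : ℕ} (y : F) (p : Fin d → L[X]) (a : Fin d → F) :
    comb L t p (fun j => y * a j) = y * comb L t p a := by
  unfold comb
  rw [Finset.mul_sum]
  exact Finset.sum_congr rfl fun j _ => by ring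

theorem comb_sub' {d : ℕ} (p p' : Fin d → L[X]) (a : Fin d → F) :
    comb L t (p - p') a = comb L t p a - comb L t p' a := by
  unfold comb
  rw [← Finset.sum_sub_distrib]
  exact Finset.sum_congr rfl fun j _ => by rw [Pi.sub_apply, map_sub, sub_mul]

theorem comb_single {d : ℕ} (g : L[X]) (i : Fin d) (a : Fin d → F) :
    comb L t (Pi.single i g) a = aeval t g * a i := by
  unfold comb
  rw [Finset.sum_eq_single i]
  · rw [Pi.single_eq_same]
  · intro j _ hj
    rw [Pi.single_eq_of_ne hj, map_zero, zero_mul]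
  · intro h
    exact absurd (Finset.mem_univ i) h

/-- independence over `L[t]`. -/
def Indep (t : F) {d : ℕ} (a : Fin d → F) : Prop :=
  ∀ p : Fin d → L[X], comb L t p a = 0 → p = 0

theorem Indep.mul_left {d : ℕ} {a : Fin d → F} (ha : Indep (L := L) t a) {y : F} (hy : y ≠ 0) :
    Indep (L := L) t (fun j => y * a j) := by
  intro p hp
  rw [comb_mul_left] at hp
  exact ha p ((mul_eq_zero.1 hp).resolve_left hy)

theorem Indep.eq {d : ℕ} {a : Fin d → F} (ha : Indep (L := L) t a) {p p' : Fin d → L[X]}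
    (h : comb L t p a = comb L t p' a) : p = p' := by
  have := ha (p - p') (by rw [comb_sub', h, sub_self])
  exact sub_eq_zero.1 this

theorem Rel.trans {d : ℕ} {s s' : L[X]} {x a a' : Fin d → F} {A A' : Matrix (Fin d) (Fin d) L[X]}
    (h : Rel t s x A a) (h' : Rel t s' a A' a') : Rel t (s * s') x (A * A') a' := by
  intro i
  rw [Matrix.mul_apply_eq_vecMul, ← comb_comb, map_mul, mul_right_comm, h i]
  have e1 : (fun j => comb L t (A' j) a') = fun j => aeval t s' * a j := funext fun j => (h' j).symm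
  rw [e1, comb_mul_left, mul_comm]

theorem Rel.mul_left {d : ℕ} {s : L[X]} {x a : Fin d → F} {A : Matrix (Fin d) (Fin d) L[X]}
    (h : Rel t s x A a) (y : F) : Rel t s (fun i => y * x i) A (fun j => y * a j) := by
  intro i
  rw [comb_mul_left, ← h i]
  ring

theorem Rel.scale {d : ℕ} {s : L[X]} {x a : Fin d → F} {A : Matrix (Fin d) (Fin d) L[X]}
    (h : Rel t s x A a) (g : L[X]) : Rel t (g * s) x (g • A) a := by
  intro i
  have : (g • A) i = fun j => g * A i j := by
    funext j; simp [Matrix.smul_apply]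
  rw [this, comb_smul, ← h i, map_mul, mul_assoc]

theorem Rel.refl {d : ℕ} (g : L[X]) (a : Fin d → F) :
    Rel t g a (g • (1 : Matrix (Fin d) (Fin d) L[X])) a := by
  intro i
  have : (g • (1 : Matrix (Fin d) (Fin d) L[X])) i = Pi.single i g := by
    funext j
    by_cases hij : i = j
    · subst hij; simp
    · rw [Pi.single_eq_of_ne (Ne.symm hij)]
      simp [Matrix.one_apply_ne hij]
  rw [this, comb_single]

theorem Rel.unique {d : ℕ} {s : L[X]} {x a : Fin d → F} {A A' : Matrix (Fin d) (Fin d) L[X]}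
    (ha : Indep (L := L) t a) (h : Rel t s x A a) (h' : Rel t s x A' a) : A = A' := by
  refine Matrix.ext fun i j => ?_
  exact congrFun (ha.eq ((h i).symm.trans (h' i))) j

/-- two relations for the same families with different denominators. -/
theorem Rel.cross {d : ℕ} {s s' : L[X]} {x a : Fin d → F} {A A' : Matrix (Fin d) (Fin d) L[X]}
    (ha : Indep (L := L) t a) (h : Rel t s x A a) (h' : Rel t s' x A' a) : s' • A = s • A' := by
  have h1 := h.scale s'
  have h2 := h'.scale s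
  rw [mul_comm] at h2
  exact Rel.unique ha h1 h2

theorem Rel.congr {d : ℕ} {s : L[X]} {x x' a a' : Fin d → F} {A : Matrix (Fin d) (Fin d) L[X]}
    (h : Rel t s x A a) (hx : ∀ i, x' i = x i) (ha : ∀ i, a' i = a i) : Rel t s x' A a' := by
  have e1 : x' = x := funext hx
  have e2 : a' = a := funext ha
  rw [e1, e2]; exact h

/-! ### multiplication operators -/

theorem mulRel_mul {d : ℕ} {b : Fin d → F} {s₁ s₂ : L[X]} {x y : F}
    {X' Y' : Matrix (Fin d) (Fin d) L[X]}
    (hx : Rel t s₁ (fun i => x * b i) X' b) (hy : Rel t s₂ (fun i => y * b i) Y' b) :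
    Rel t (s₁ * s₂) (fun i => (x * y) * b i) (X' * Y') b :=
  ((hx.mul_left y).trans hy).congr (fun i => by ring) (fun _ => rfl)

theorem mulRel_pow {d : ℕ} {b : Fin d → F} {s : L[X]} {x : F} {X' : Matrix (Fin d) (Fin d) L[X]}
    (hx : Rel t s (fun i => x * b i) X' b) (m : ℕ) :
    Rel t (s ^ m) (fun i => x ^ m * b i) (X' ^ m) b := by
  induction m with
  | zero =>
    have := Rel.refl (t := t) (1 : L[X]) b
    rw [one_smul] at this
    simpa using this
  | succ m ih =>
    rw [pow_succ, pow_succ]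
    exact (mulRel_mul ih hx).congr (fun i => by ring) (fun _ => rfl)

/-! ### polynomials over an algebraically closed field -/

theorem exists_C_mul_of_rootMultiplicity_eq [IsAlgClosed L] {R R' : L[X]} (hR : R ≠ 0)
    (hR' : R' ≠ 0) (h : ∀ c : L, R.rootMultiplicity c = R'.rootMultiplicity c) :
    ∃ c₀ : L, c₀ ≠ 0 ∧ R = C c₀ * R' := by
  classical
  have hroots : R.roots = R'.roots := by
    refine Multiset.ext.2 fun c => ?_
    rw [count_roots, count_roots, h c]
  have h1 := (IsAlgClosed.splits R).eq_prod_roots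
  have h2 := (IsAlgClosed.splits R').eq_prod_roots
  have hl : R'.leadingCoeff ≠ 0 := leadingCoeff_ne_zero.2 hR'
  refine ⟨R.leadingCoeff / R'.leadingCoeff, div_ne_zero (leadingCoeff_ne_zero.2 hR) hl, ?_⟩
  have h3 : C (R.leadingCoeff / R'.leadingCoeff) * R'
      = C R.leadingCoeff * (Multiset.map (fun x => X - C x) R'.roots).prod := by
    generalize R'.leadingCoeff = l' at h2 hl ⊢
    generalize (Multiset.map (fun x => X - C x) R'.roots).prod = Q at h2 ⊢
    rw [h2, ← mul_assoc, ← C_mul, div_mul_cancel₀ _ hl]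
  rw [h3, ← hroots]
  exact h1

theorem rootMultiplicity_eq_of_mul_eq {R R' a a' : L[X]} {c : L} (hR' : R' ≠ 0)
    (ha : a.eval c ≠ 0) (ha' : a'.eval c ≠ 0) (h : a * R = a' * R') :
    R ≠ 0 ∧ R.rootMultiplicity c = R'.rootMultiplicity c := by
  have ha0 : a ≠ 0 := fun h0 => ha (by rw [h0, eval_zero])
  have ha0' : a' ≠ 0 := fun h0 => ha' (by rw [h0, eval_zero])
  have hR : R ≠ 0 := by
    rintro rfl
    rw [mul_zero] at h
    exact mul_ne_zero ha0' hR' h.symm
  refine ⟨hR, ?_⟩
  have h1 := rootMultiplicity_mul (x := c) (mul_ne_zero ha0 hR)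
  have h2 := rootMultiplicity_mul (x := c) (mul_ne_zero ha0' hR')
  rw [rootMultiplicity_eq_zero (p := a) ha] at h1
  rw [rootMultiplicity_eq_zero (p := a') ha'] at h2
  rw [h] at h1
  omega

/-- the purely algebraic end of the local computation. -/
theorem algebra_step {R : Type*} [CommRing R] [IsDomain R] {d n : ℕ}
    {s g q r dA dP dZ dW dU : R} (hs : s ≠ 0)
    (hE1 : s ^ d * (dA * dP) = (g * q) ^ d * dZ)
    (hE2 : g ^ d * (dZ ^ n * dW) = (s ^ n * r) ^ d * dU) :
    (dA ^ n * g ^ d) * (dP ^ n * dW) = (g ^ (d * n) * dU) * (q ^ (d * n) * r ^ d) := by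
  apply mul_left_cancel₀ (pow_ne_zero (d * n) hs)
  calc s ^ (d * n) * ((dA ^ n * g ^ d) * (dP ^ n * dW))
      = (s ^ d * (dA * dP)) ^ n * (g ^ d * dW) := by ring
    _ = ((g * q) ^ d * dZ) ^ n * (g ^ d * dW) := by rw [hE1]
    _ = (g * q) ^ (d * n) * (g ^ d * (dZ ^ n * dW)) := by ring
    _ = (g * q) ^ (d * n) * ((s ^ n * r) ^ d * dU) := by rw [hE2]
    _ = s ^ (d * n) * ((g ^ (d * n) * dU) * (q ^ (d * n) * r ^ d)) := by ring

theorem eval_ne_zero_of_mul_eq_pow {x y g : L[X]} {c : L} {m : ℕ} (hg : g.eval c ≠ 0)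
    (h : x * y = g ^ m) : x.eval c ≠ 0 := by
  intro h0
  have := congrArg (eval c) h
  rw [eval_mul, h0, zero_mul, eval_pow] at this
  exact pow_ne_zero m hg this.symm

theorem mem_of_isBasis {d : ℕ} {a : Fin d → F} {S : Set F} (ha : IsBasis L t a S) (i : Fin d) :
    a i ∈ S :=
  (ha.2 (a i)).2 ⟨Pi.single i 1, by rw [comb_single, map_one, one_mul]⟩

/-- a family contained in the lattice spanned by `a` has a polynomial matrix. -/
theorem exists_rel_of_mem {d : ℕ} {a : Fin d → F} {S : Set F} (ha : IsBasis L t a S) (g : L[X])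
    (x : Fin d → F) (hx : ∀ i, aeval t g * x i ∈ S) :
    ∃ A : Matrix (Fin d) (Fin d) L[X], Rel t g x A a := by
  have h : ∀ i, ∃ p : Fin d → L[X], aeval t g * x i = comb L t p a := fun i => (ha.2 _).1 (hx i)
  choose A hA using h
  exact ⟨Matrix.of A, hA⟩

/-- the local statement at `c`. -/
theorem local_eq (hinj : ∀ p : L[X], aeval t p = 0 → p = 0) {d : ℕ}
    (β : Fin d → F) (hβs : Spans L t β)
    (b : Fin d → F) (hb : IsBasis L t b (BB L t)) {n : ℕ} (hn : 0 < n) {w : F} (hw : w ≠ 0)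
    (e : Fin d → F) (he : IsBasis L t e (II L t n w)) {c : L} (hU : LocPow L t n w c)
    (q : L[X]) (P : Matrix (Fin d) (Fin d) L[X])
    (hP : Rel t q e P b)
    (r : L[X]) (W : Matrix (Fin d) (Fin d) L[X])
    (hW : Rel t r (fun i => w * b i) W b) :
    ∃ a a' : L[X], a.eval c ≠ 0 ∧ a'.eval c ≠ 0 ∧
      a * (P.det ^ n * W.det) = a' * (q ^ (d * n) * r ^ d) := by
  obtain ⟨z, g, hz, hgc, hu1, hu2⟩ := hU
  obtain ⟨m, rfl⟩ : ∃ m, n = m + 1 := ⟨n - 1, by omega⟩
  have hbI : Indep (L := L) t b := hb.1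
  have hbmem : ∀ i, IsInt L t (b i) := fun i => mem_of_isBasis hb i
  have hemem : ∀ i, IsInt L t (e i ^ (m + 1) * w) := fun i => mem_of_isBasis he i
  have hgint : IsInt L t (aeval t g) := IsInt.aeval g
  -- (1) the two inclusions
  obtain ⟨A, hA⟩ := exists_rel_of_mem he g (fun i => z * b i) (fun i => by
    show IsInt L t ((aeval t g * (z * b i)) ^ (m + 1) * w)
    have : (aeval t g * (z * b i)) ^ (m + 1) * w
        = aeval t g ^ m * b i ^ (m + 1) * (aeval t g * (z ^ (m + 1) * w)) := by ring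
    rw [this]
    exact ((hgint.pow m).mul ((hbmem i).pow _)).mul hu1)
  obtain ⟨A', hA'⟩ := exists_rel_of_mem hb g (fun i => z⁻¹ * e i) (fun i => by
    show IsInt L t (aeval t g * (z⁻¹ * e i))
    apply IsInt.of_pow (Nat.succ_pos m)
    have : (aeval t g * (z⁻¹ * e i)) ^ (m + 1)
        = aeval t g ^ m * (e i ^ (m + 1) * w) * (aeval t g * (z ^ (m + 1) * w)⁻¹) := by
      rw [mul_inv, mul_pow, mul_pow, inv_pow]
      have hw1 : w * w⁻¹ = 1 := mul_inv_cancel₀ hw
      calc aeval t g ^ (m + 1) * ((z ^ (m + 1))⁻¹ * e i ^ (m + 1))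
          = aeval t g ^ (m + 1) * ((z ^ (m + 1))⁻¹ * e i ^ (m + 1)) * (w * w⁻¹) := by
            rw [hw1, mul_one]
        _ = _ := by ring
    rw [this]
    exact ((hgint.pow m).mul (hemem i)).mul hu2)
  -- `A * A' = g² • 1`
  have hAA : A * A' = (g * g) • (1 : Matrix (Fin d) (Fin d) L[X]) := by
    have h1 : Rel t g e A' (fun i => z * b i) :=
      (hA'.mul_left z).congr (fun i => by field_simp) (fun _ => rfl)
    exact Rel.unique (hbI.mul_left hz) (hA.trans h1) (Rel.refl _ _)
  -- the matrix of `z`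
  obtain ⟨s, Z, hs, hZ⟩ := exists_matrix_of_bases hinj β hβs b hb.1 (fun i => z * b i)
  have hZ' : Rel t s (fun i => z * b i) Z b := hZ
  have hE1m : s • (A * P) = (g * q) • Z := Rel.cross hbI (hA.trans hP) hZ'
  -- the matrices of `u` and `u⁻¹`
  obtain ⟨U₁, hU₁⟩ := exists_rel_of_mem hb g (fun i => (z ^ (m + 1) * w) * b i) (fun i => by
    show IsInt L t (aeval t g * ((z ^ (m + 1) * w) * b i))
    rw [← mul_assoc]
    exact hu1.mul (hbmem i))
  obtain ⟨U₂, hU₂⟩ := exists_rel_of_mem hb g (fun i => (z ^ (m + 1) * w)⁻¹ * b i) (fun i => by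
    show IsInt L t (aeval t g * ((z ^ (m + 1) * w)⁻¹ * b i))
    rw [← mul_assoc]
    exact hu2.mul (hbmem i))
  have hu0 : z ^ (m + 1) * w ≠ 0 := mul_ne_zero (pow_ne_zero _ hz) hw
  have hUU : U₁ * U₂ = (g * g) • (1 : Matrix (Fin d) (Fin d) L[X]) := by
    have h1 : Rel t (g * g) b (U₁ * U₂) b :=
      (mulRel_mul hU₁ hU₂).congr (fun i => by rw [mul_inv_cancel₀ hu0, one_mul]) (fun _ => rfl)
    exact Rel.unique hbI h1 (Rel.refl _ _)
  have hE2m : g • (Z ^ (m + 1) * W) = (s ^ (m + 1) * r) • U₁ :=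
    Rel.cross hbI (mulRel_mul (mulRel_pow hZ' (m + 1)) hW) hU₁
  -- determinants
  have dAA : A.det * A'.det = (g * g) ^ d := by
    rw [← Matrix.det_mul, hAA, Matrix.det_smul, Matrix.det_one, mul_one, Fintype.card_fin]
  have dUU : U₁.det * U₂.det = (g * g) ^ d := by
    rw [← Matrix.det_mul, hUU, Matrix.det_smul, Matrix.det_one, mul_one, Fintype.card_fin]
  have dE1 : s ^ d * (A.det * P.det) = (g * q) ^ d * Z.det := by
    have := congrArg Matrix.det hE1m
    rwa [Matrix.det_smul, Matrix.det_smul, Matrix.det_mul, Fintype.card_fin] at this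
  have dE2 : g ^ d * (Z.det ^ (m + 1) * W.det) = (s ^ (m + 1) * r) ^ d * U₁.det := by
    have := congrArg Matrix.det hE2m
    rwa [Matrix.det_smul, Matrix.det_smul, Matrix.det_mul, Matrix.det_pow, Fintype.card_fin]
      at this
  have hgg : (g * g).eval c ≠ 0 := by rw [eval_mul]; exact mul_ne_zero hgc hgc
  refine ⟨A.det ^ (m + 1) * g ^ d, g ^ (d * (m + 1)) * U₁.det, ?_, ?_, algebra_step hs dE1 dE2⟩
  · rw [eval_mul, eval_pow, eval_pow]
    exact mul_ne_zero (pow_ne_zero _ (eval_ne_zero_of_mul_eq_pow hgg dAA)) (pow_ne_zero _ hgc)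
  · rw [eval_mul, eval_pow]
    exact mul_ne_zero (pow_ne_zero _ hgc) (eval_ne_zero_of_mul_eq_pow hgg dUU)

end Index

open Index

/-- **P4.** -/
theorem index_const [IsAlgClosed L] (hinj : ∀ p : L[X], aeval t p = 0 → p = 0) {d : ℕ}
    (β : Fin d → F) (hβs : Spans L t β)
    (b : Fin d → F) (hb : IsBasis L t b (BB L t)) {n : ℕ} (hn : 0 < n) {w : F} (hw : w ≠ 0)
    (e : Fin d → F) (he : IsBasis L t e (II L t n w)) (hU : ∀ c : L, LocPow L t n w c)
    (q : L[X]) (P : Matrix (Fin d) (Fin d) L[X]) (hq : q ≠ 0)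
    (hP : ∀ i, aeval t q * e i = comb L t (P i) b)
    (r : L[X]) (W : Matrix (Fin d) (Fin d) L[X]) (hr : r ≠ 0)
    (hW : ∀ i, aeval t r * (w * b i) = comb L t (W i) b) :
    ∃ c₀ : L, c₀ ≠ 0 ∧ P.det ^ n * W.det = C c₀ * (q ^ (d * n) * r ^ d) := by
  have hR' : q ^ (d * n) * r ^ d ≠ 0 := mul_ne_zero (pow_ne_zero _ hq) (pow_ne_zero _ hr)
  have key : ∀ c : L, P.det ^ n * W.det ≠ 0 ∧
      (P.det ^ n * W.det).rootMultiplicity c = (q ^ (d * n) * r ^ d).rootMultiplicity c := by
    intro c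
    obtain ⟨a, a', ha, ha', h⟩ := local_eq hinj β hβs b hb hn hw e he (hU c) q P hP r W hW
    exact rootMultiplicity_eq_of_mul_eq hR' ha ha' h
  exact exists_C_mul_of_rootMultiplicity_eq (key 0).1 hR' (fun c => (key c).2)

end Fermat.Agent.GAL.KL
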