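import Fermat.Agent.GAL.KL.Defs

/-!
# GAL / KL / P5 : auxiliary lemmas for `exists_near_one`

Congruences modulo the maximal ideal of a valuation, for products, powers, determinants, adjugates,
and the "degree argument": a polynomial with integral coefficients one of whose powers is
congruent to a unit constant is itself congruent to a unit constant.
-/

set_option autoImplicit false

namespace Fermat.Agent.GAL.KL.NearOne

open Polynomial

variable {F Γ₀ : Type*} [Field F] [LinearOrderedCommGroupWithZero Γ₀] {v : Valuation F Γ₀}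

theorem v_prod_le_one {ι : Type*} (s : Finset ι) (a : ι → F) (ha : ∀ i ∈ s, v (a i) ≤ 1) :
    v (∏ i ∈ s, a i) ≤ 1 := by
  rw [map_prod]
  exact Finset.prod_le_one' ha

theorem congr_mul {a a' b b' : F} (ha : v (a - a') < 1) (hb : v (b - b') < 1) (h1 : v a ≤ 1)
    (h2 : v b' ≤ 1) : v (a * b - a' * b') < 1 := by
  have h : a * b - a' * b' = a * (b - b') + (a - a') * b' := by ring
  rw [h]
  refine Valuation.map_add_lt v ?_ ?_
  · rw [map_mul]
    exact (mul_le_of_le_one_left' h1).trans_lt hb
  · rw [map_mul]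
    exact mul_lt_one_of_lt_of_le ha h2

theorem congr_pow {a a' : F} (ha : v (a - a') < 1) (h1 : v a ≤ 1) (h2 : v a' ≤ 1) (n : ℕ)
    (hn : 0 < n) : v (a ^ n - a' ^ n) < 1 := by
  induction n, hn using Nat.le_induction with
  | base => simpa using ha
  | succ m _ ih =>
    rw [pow_succ, pow_succ]
    exact congr_mul ih ha (by rw [map_pow]; exact pow_le_one' h1 m) h2

theorem congr_prod {ι : Type*} (s : Finset ι) (hs : s.Nonempty) (a b : ι → F)
    (ha : ∀ i ∈ s, v (a i) ≤ 1) (hb : ∀ i ∈ s, v (b i) ≤ 1) (hab : ∀ i ∈ s, v (a i - b i) < 1) :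
    v (∏ i ∈ s, a i - ∏ i ∈ s, b i) < 1 := by
  classical
  induction hs using Finset.Nonempty.cons_induction with
  | singleton i => simpa using hab i (by simp)
  | cons i s hi hs ih =>
    rw [Finset.prod_cons, Finset.prod_cons]
    refine congr_mul (hab i (by simp)) (ih ?_ ?_ ?_) (ha i (by simp)) ?_
    · exact fun j hj => ha j (by simp [hj])
    · exact fun j hj => hb j (by simp [hj])
    · exact fun j hj => hab j (by simp [hj])
    · exact v_prod_le_one s b fun j hj => hb j (by simp [hj])

theorem v_det_le_one {d : ℕ} (A : Matrix (Fin d) (Fin d) F) (hA : ∀ i j, v (A i j) ≤ 1) :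
    v A.det ≤ 1 := by
  rw [Matrix.det_apply]
  refine Valuation.map_sum_le v fun σ _ => ?_
  rcases Int.units_eq_one_or (Equiv.Perm.sign σ) with h | h
  · rw [h, one_smul]
    exact v_prod_le_one _ _ fun i _ => hA _ _
  · rw [h, Units.neg_smul, one_smul, Valuation.map_neg]
    exact v_prod_le_one _ _ fun i _ => hA _ _

theorem congr_det {d : ℕ} (A B : Matrix (Fin d) (Fin d) F) (hA : ∀ i j, v (A i j) ≤ 1)
    (hB : ∀ i j, v (B i j) ≤ 1) (hAB : ∀ i j, v (A i j - B i j) < 1) :
    v (A.det - B.det) < 1 := by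
  rcases Nat.eq_zero_or_pos d with rfl | hd
  · simp
  have : Nonempty (Fin d) := ⟨⟨0, hd⟩⟩
  rw [Matrix.det_apply, Matrix.det_apply, ← Finset.sum_sub_distrib]
  refine Valuation.map_sum_lt v one_ne_zero fun σ _ => ?_
  have key : v (∏ i, A (σ i) i - ∏ i, B (σ i) i) < 1 :=
    congr_prod _ Finset.univ_nonempty _ _ (fun i _ => hA _ _) (fun i _ => hB _ _)
      (fun i _ => hAB _ _)
  rcases Int.units_eq_one_or (Equiv.Perm.sign σ) with h | h
  · rw [h, one_smul, one_smul]
    exact key
  · rw [h, Units.neg_smul, Units.neg_smul, one_smul, one_smul, neg_sub_neg, Valuation.map_sub_swap]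
    exact key

theorem v_adjugate_le_one {d : ℕ} (A : Matrix (Fin d) (Fin d) F) (hA : ∀ i j, v (A i j) ≤ 1)
    (i j : Fin d) : v (A.adjugate i j) ≤ 1 := by
  rw [Matrix.adjugate_apply]
  refine v_det_le_one _ fun k l => ?_
  rw [Matrix.updateRow_apply]
  split_ifs with h
  · rw [Pi.single_apply]
    split_ifs <;> simp
  · exact hA k l

/-- The degree argument: if `D` has integral coefficients and `D ^ n` is congruent to a unit constant,
then `D` is congruent to a unit constant. -/
theorem coeff_of_pow_congr_const {L : Type*} [Field L] (vL : Valuation L Γ₀) (D : L[X]) (c₀ : L)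
    {n : ℕ} (hn : 0 < n) (hD : ∀ i, vL (D.coeff i) ≤ 1) (hc : vL c₀ = 1)
    (h : ∀ i, vL ((D ^ n - C c₀).coeff i) < 1) :
    vL (D.coeff 0) = 1 ∧ ∀ i, 0 < i → vL (D.coeff i) < 1 := by
  set A := vL.valuationSubring with hA
  let res := IsLocalRing.residue A
  have hDl : D ∈ lifts A.subtype := by
    rw [lifts_iff_coeff_lifts]
    intro i
    exact ⟨⟨D.coeff i, hD i⟩, rfl⟩
  obtain ⟨D', hD'⟩ := (mem_lifts _).1 hDl
  let c' : A := ⟨c₀, hc.le⟩
  have hres0 : ∀ a : A, res a = 0 ↔ vL (a : L) < 1 := fun a => by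
    rw [IsLocalRing.residue_eq_zero_iff]
    exact Valuation.mem_maximalIdeal_iff (v := vL)
  have hcoeff : ∀ i, ((D'.coeff i : A) : L) = D.coeff i := fun i => by
    rw [← hD', coeff_map]; rfl
  have hE : (D' ^ n - C c').map A.subtype = D ^ n - C c₀ := by
    rw [Polynomial.map_sub, Polynomial.map_pow, hD', map_C]; rfl
  have hE0 : (D' ^ n - C c').map res = 0 := by
    ext i
    rw [coeff_map, coeff_zero, hres0]
    have : (((D' ^ n - C c').coeff i : A) : L) = (D ^ n - C c₀).coeff i := by
      rw [← hE, coeff_map]; rfl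
    rw [this]
    exact h i
  have hpow : (D'.map res) ^ n = C (res c') := by
    rw [Polynomial.map_sub, Polynomial.map_pow, map_C, sub_eq_zero] at hE0
    exact hE0
  have hc'0 : res c' ≠ 0 := by
    rw [Ne, hres0]
    exact not_lt.2 hc.ge
  have hdeg : (D'.map res).natDegree = 0 := by
    have h1 := congrArg natDegree hpow
    rw [natDegree_pow, natDegree_C] at h1
    rcases Nat.mul_eq_zero.1 h1 with h2 | h2
    · exact absurd h2 hn.ne'
    · exact h2
  constructor
  · have h0 : res (D'.coeff 0) ≠ 0 := by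
      intro h0
      have h1 := eq_C_of_natDegree_eq_zero hdeg
      rw [coeff_map, h0, C_0] at h1
      rw [h1, zero_pow hn.ne'] at hpow
      exact hc'0 (C_eq_zero.1 hpow.symm)
    rw [Ne, hres0, hcoeff, not_lt] at h0
    exact le_antisymm (hD 0) h0
  · intro i hi
    rw [← hcoeff, ← hres0, ← coeff_map]
    exact coeff_eq_zero_of_natDegree_lt (by rw [hdeg]; exact hi)

end Fermat.Agent.GAL.KL.NearOne
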