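import Fermat.Agent.GAL.KL.Lattice
import Fermat.Agent.GAL.KL.Index
import Fermat.Agent.GAL.KL.ONBasis
import Fermat.Agent.GAL.KL.NearOneAux

/-!
# GAL / KL / P5 : claim (A):  there is `G ∈ I_t(w)` with `v (G - 1) < 1`

PROOF.  Take orthonormal bases `b` of `B = BB L t` and `e` of `I = II L t n w` (`exists_basis_II`, `exists_ON_basis`).
Write `A[X]` for the polynomials all of whose coefficients have `v ≤ 1`, `p ≡ p'` if all coefficients of `p - p'` have `v < 1`.
* `q(t) e_i = comb (P i) b`, `q'(t) b_i = comb (P' i) e` (`exists_matrix_of_bases`), normalised by constants so that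
  `v (q(t)) = v (q'(t)) = 1`; by orthonormality `P, P' ∈ Mat(A[X])`; `P P' = q q' • 1`, so `det P * det P' = (q q')^d` has Gauss norm `1`, so
  `det P` has Gauss norm `1`.
* `r(t) w b_i = comb (W i) b`, `v (r(t)) = 1`; as `v (w - 1) < 1`, `W ≡ r • 1`, so `det W ≡ r^d`.
* `RootClosed` applied to `x = e_i`, `b = e_i^n w`: there is `b'_i ∈ B`, `v (e_i - b'_i) < 1`, `b'_i = comb (M₀ i) b`, `M₀ ∈ Mat(A[X])`; so
  `P ≡ q • M₀`, `det P ≡ q^d det M₀`.
* `index_const`: `(det P)^n det W = c₀ q^(dn) r^d`; taking Gauss norms `v c₀ = 1`.  Reduce to the residue field `k` of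
  `A = {a : L | v a ≤ 1}` (a valuation ring of `L`): in `k[X]`: `(q̄^d det M̄₀)^n r̄^d = c̄₀ q̄^(dn) r̄^d`, `q̄, r̄ ≠ 0`; so `(det M̄₀)^n = c̄₀` and
  `det M̄₀` is a nonzero constant: `det M₀ ≡ C u`, `v u = 1`.
* `1 ∈ B`: `1 = comb g b`, `g ∈ A[X]^d`.  Put `γ = u⁻¹ • (g ᵥ* adjugate M₀)`, `G = comb γ e ∈ I`.  Then
  `G ≡ comb (γ ᵥ* M₀) b = comb (u⁻¹ det M₀ • g) b ≡ comb g b = 1` modulo `m_v`.
-/

set_option autoImplicit false

namespace Fermat.Agent.GAL.KL

open Polynomial

variable {L F Γ₀ : Type*} [Field L] [Field F] [Algebra L F] [LinearOrderedCommGroupWithZero Γ₀]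
variable {v : Valuation F Γ₀} {t : F}

namespace NearOne

theorem comb_sub' {d : ℕ} (p p' : Fin d → L[X]) (e : Fin d → F) :
    comb L t (fun j => p j - p' j) e = comb L t p e - comb L t p' e := by
  simp only [comb, map_sub, sub_mul, Finset.sum_sub_distrib]

theorem comb_single' {d : ℕ} (i : Fin d) (q : L[X]) (e : Fin d → F) :
    comb L t (Pi.single i q) e = aeval t q * e i := by
  classical
  simp only [comb]
  rw [Finset.sum_eq_single i]
  · simp
  · intro j _ hj
    simp [Pi.single_eq_of_ne hj]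
  · intro h; exact absurd (Finset.mem_univ i) h

theorem comb_mul_right' {d : ℕ} (p : Fin d → L[X]) (c : F) (e : Fin d → F) :
    comb L t p (fun j => c * e j) = c * comb L t p e := by
  simp only [comb, Finset.mul_sum]
  exact Finset.sum_congr rfl fun j _ => by ring

theorem comb_mul_left' {d : ℕ} (q : L[X]) (p : Fin d → L[X]) (e : Fin d → F) :
    comb L t (fun i => q * p i) e = aeval t q * comb L t p e := by
  simp only [comb, Finset.mul_sum, map_mul]
  exact Finset.sum_congr rfl fun j _ => by ring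

/-- `exists_matrix_of_bases`, normalised. -/
theorem exists_matrix_normalised (hG : Gauss L v t) {d : ℕ} (β : Fin d → F) (hβs : Spans L t β)
    (b : Fin d → F) (hb : ON L v t b) (x : Fin d → F) (hx : ∀ i, v (x i) ≤ 1) :
    ∃ (q : L[X]) (P : Matrix (Fin d) (Fin d) L[X]), v (aeval t q) = 1 ∧
      (∀ i, aeval t q * x i = comb L t (P i) b) ∧ ∀ i j, v (aeval t (P i j)) ≤ 1 := by
  obtain ⟨q₀, P₀, hq₀, hP₀⟩ := exists_matrix_of_bases hG.inj β hβs b (hb.inj hG) x
  obtain ⟨a, ha⟩ := hG.exists_const q₀
  have hq₀t : aeval t q₀ ≠ 0 := fun h => hq₀ (hG.inj q₀ h)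
  have hva : v (algebraMap L F a) ≠ 0 := by
    rw [← ha]; exact (Valuation.ne_zero_iff v).2 hq₀t
  have hq1 : v (aeval t (C a⁻¹ * q₀)) = 1 := by
    rw [map_mul, aeval_C, map_mul, map_inv₀, map_inv₀, ha]
    exact inv_mul_cancel₀ hva
  have hP : ∀ i, aeval t (C a⁻¹ * q₀) * x i = comb L t (fun j => C a⁻¹ * P₀ i j) b := by
    intro i
    rw [comb_mul_left', map_mul, mul_assoc, hP₀ i]
  refine ⟨C a⁻¹ * q₀, Matrix.of fun i j => C a⁻¹ * P₀ i j, hq1, hP, fun i j => ?_⟩
  refine (hb (fun j => C a⁻¹ * P₀ i j) 1).1 ?_ j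
  rw [← hP i, map_mul, hq1, one_mul]
  exact hx i

theorem eq_one_of_mul_eq_one {a b : Γ₀} (h : a * b = 1) (ha : a ≤ 1) (hb : b ≤ 1) : a = 1 := by
  refine le_antisymm ha ?_
  calc (1 : Γ₀) = a * b := h.symm
    _ ≤ a * 1 := mul_le_mul_right hb a
    _ = a := mul_one a

end NearOne

open NearOne in
/-- **P5.** -/
theorem exists_near_one [IsAlgClosed L] (hG : Gauss L v t) {d : ℕ} (β : Fin d → F)
    (hβ : ON L v t β) (hβs : Spans L t β) (b : Fin d → F) (hb : IsBasis L t b (BB L t))
    {n : ℕ} (hn : 0 < n) {w : F} (hw : v (w - 1) < 1) (hroot : RootClosed L v t n)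
    (hU : ∀ c : L, LocPow L t n w c) :
    ∃ G : F, G ∈ II L t n w ∧ v (G - 1) < 1 := by
  classical
  have hvw : v w = 1 := by
    have h1 : v (w - 1) < v (1 : F) := by rwa [map_one]
    have := Valuation.map_add_eq_of_lt_left v h1
    rw [add_sub_cancel, map_one] at this
    exact this
  have hw0 : w ≠ 0 := fun h => by rw [h, map_zero] at hvw; exact zero_ne_one hvw
  -- orthonormal bases
  obtain ⟨b₁, hb₁, hb₁ON⟩ := exists_ON_basis hG β hβ hβs _ b hb
  obtain ⟨a, ha⟩ := exists_basis_II hG.inj β hβs b₁ hb₁ hn hw0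
  obtain ⟨e, he, heON⟩ := exists_ON_basis hG β hβ hβs _ a ha
  have hve : ∀ i, v (e i) = 1 := fun i => heON.v_eq_one i
  have hvb : ∀ i, v (b₁ i) = 1 := fun i => hb₁ON.v_eq_one i
  have hemem : ∀ i, e i ∈ II L t n w := fun i =>
    (he.2 (e i)).2 ⟨Pi.single i 1, by rw [comb_single']; simp⟩
  -- the matrices
  obtain ⟨q, P, hq1, hP, hPle⟩ :=
    exists_matrix_normalised hG β hβs b₁ hb₁ON e (fun i => (hve i).le)
  obtain ⟨q', P', hq'1, hP', hP'le⟩ :=
    exists_matrix_normalised hG β hβs e heON b₁ (fun i => (hvb i).le)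
  obtain ⟨r, W, hr1, hW, hWle⟩ :=
    exists_matrix_normalised hG β hβs b₁ hb₁ON (fun i => w * b₁ i)
      (fun i => by rw [map_mul, hvw, hvb i, one_mul])
  have hq0 : q ≠ 0 := by
    rintro rfl
    rw [map_zero, map_zero] at hq1
    exact zero_ne_one hq1
  have hr0 : r ≠ 0 := by
    rintro rfl
    rw [map_zero, map_zero] at hr1
    exact zero_ne_one hr1
  -- approximation of `e i` by elements of `B`
  have hroot' : ∀ i, ∃ b' : F, IsInt L t b' ∧ v (e i - b') < 1 := by
    intro i
    refine hroot (e i) (e i ^ n * w) (hemem i) ?_ (hve i).le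
    have h1 : e i ^ n - e i ^ n * w = - (e i ^ n * (w - 1)) := by ring
    rw [h1, Valuation.map_neg, map_mul, map_pow, hve i, one_pow, one_mul]
    exact hw
  choose b' hb'int hb'lt using hroot'
  have hb'le : ∀ i, v (b' i) ≤ 1 := by
    intro i
    have h1 : b' i = e i - (e i - b' i) := by ring
    rw [h1]
    exact (Valuation.map_sub v _ _).trans (max_le (hve i).le (hb'lt i).le)
  have hM₀ex : ∀ i, ∃ p : Fin d → L[X], b' i = comb L t p b₁ := fun i =>
    (hb₁.2 (b' i)).1 (hb'int i)
  choose M₀ hM₀ using hM₀ex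
  let M : Matrix (Fin d) (Fin d) L[X] := Matrix.of M₀
  have hMle : ∀ i j, v (aeval t (M i j)) ≤ 1 := by
    intro i j
    refine (hb₁ON (M₀ i) 1).1 ?_ j
    rw [← hM₀ i]
    exact hb'le i
  -- congruences of the entries
  have hPM : ∀ i j, v (aeval t (P i j - q * M i j)) < 1 := by
    intro i j
    refine (hb₁ON.lt_iff (fun j => P i j - q * M i j) 1 one_ne_zero).1 ?_ j
    rw [comb_sub', comb_mul_left']
    have h1 : comb L t (fun j => P i j) b₁ = aeval t q * e i := (hP i).symm
    have h2 : comb L t (fun j => M i j) b₁ = b' i := (hM₀ i).symm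
    rw [h1, h2, ← mul_sub, map_mul, hq1, one_mul]
    exact hb'lt i
  have hWr : ∀ i j, v (aeval t (W i j - (Pi.single i r : Fin d → L[X]) j)) < 1 := by
    intro i j
    refine (hb₁ON.lt_iff (fun j => W i j - (Pi.single i r : Fin d → L[X]) j) 1 one_ne_zero).1 ?_ j
    rw [comb_sub']
    have h1 : comb L t (fun j => W i j) b₁ = aeval t r * (w * b₁ i) := (hW i).symm
    have h2 : comb L t (fun j => (Pi.single i r : Fin d → L[X]) j) b₁ = aeval t r * b₁ i :=
      comb_single' i r b₁
    rw [h1, h2]
    have h3 : aeval t r * (w * b₁ i) - aeval t r * b₁ i = aeval t r * ((w - 1) * b₁ i) := by ring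
    rw [h3, map_mul, map_mul, hr1, hvb i, one_mul, mul_one]
    exact hw
  -- evaluation of determinants
  have hdet : ∀ N : Matrix (Fin d) (Fin d) L[X], aeval t N.det = (N.map (aeval t)).det := by
    intro N
    rw [AlgHom.map_det, AlgHom.mapMatrix_apply]
  have hdetle : ∀ N : Matrix (Fin d) (Fin d) L[X], (∀ i j, v (aeval t (N i j)) ≤ 1) →
      v (aeval t N.det) ≤ 1 := by
    intro N hN
    rw [hdet]
    exact v_det_le_one _ fun i j => by rw [Matrix.map_apply]; exact hN i j
  -- (a) `det P` has Gauss norm one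
  have hPP' : P * P' = (q * q') • (1 : Matrix (Fin d) (Fin d) L[X]) := by
    have h1 : ∀ i, Matrix.vecMul (P i) P' = Pi.single i (q * q') := by
      intro i
      have h2 : comb L t (fun j => Matrix.vecMul (P i) P' j - (Pi.single i (q * q') : Fin d → L[X]) j) e
          = 0 := by
        rw [comb_sub']
        have h3 : comb L t (fun j => Matrix.vecMul (P i) P' j) e
            = comb L t (P i) (fun j => comb L t (P' j) e) := (comb_comb (P i) P' e).symm
        have h4 : comb L t (fun j => (Pi.single i (q * q') : Fin d → L[X]) j) e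
            = aeval t (q * q') * e i := comb_single' i (q * q') e
        rw [h3, h4]
        have h5 : (fun j => comb L t (P' j) e) = fun j => aeval t q' * b₁ j := by
          funext j; exact (hP' j).symm
        rw [h5, comb_mul_right', ← hP i, map_mul]
        ring
      have h6 := he.1 _ h2
      funext j
      have h7 := congrFun h6 j
      exact sub_eq_zero.1 h7
    ext i k : 2
    have h8 := congrFun (h1 i) k
    rw [Matrix.smul_apply, Matrix.one_apply, smul_eq_mul]
    rw [Pi.single_apply] at h8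
    have h9 : (P * P') i k = Matrix.vecMul (P i) P' k := by
      simp [Matrix.mul_apply, Matrix.vecMul, dotProduct]
    rw [h9, h8]
    by_cases hik : i = k
    · subst hik; simp
    · rw [if_neg hik, if_neg (fun h => hik h.symm), mul_zero]
  have hvP : v (aeval t P.det) = 1 := by
    have h1 := congrArg Matrix.det hPP'
    rw [Matrix.det_mul, Matrix.det_smul, Matrix.det_one, mul_one, Fintype.card_fin] at h1
    have h2 := congrArg (fun p => v (aeval t p)) h1
    simp only [map_mul, map_pow, hq1, hq'1, one_pow, mul_one] at h2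
    exact eq_one_of_mul_eq_one h2 (hdetle P hPle) (hdetle P' hP'le)
  -- (b) `det W ≡ r ^ d`
  have hWdet : v (aeval t W.det - aeval t r ^ d) < 1 := by
    have h1 : (aeval t r • (1 : Matrix (Fin d) (Fin d) F)).det = aeval t r ^ d := by
      rw [Matrix.det_smul, Matrix.det_one, mul_one, Fintype.card_fin]
    rw [hdet, ← h1]
    refine congr_det _ _ (fun i j => by rw [Matrix.map_apply]; exact hWle i j) ?_ ?_
    · intro i j
      rw [Matrix.smul_apply, Matrix.one_apply, smul_eq_mul]
      split_ifs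
      · rw [mul_one, hr1]
      · simp
    · intro i j
      have h2 := hWr i j
      rw [Matrix.map_apply, Matrix.smul_apply, Matrix.one_apply, smul_eq_mul]
      rw [map_sub, Pi.single_apply] at h2
      by_cases hij : i = j
      · subst hij
        simpa using h2
      · rw [if_neg hij, mul_zero]
        rw [if_neg (fun h => hij h.symm), map_zero] at h2
        exact h2
  -- (c) `det P ≡ q ^ d * det M`
  have hPdet : v (aeval t P.det - aeval t q ^ d * aeval t M.det) < 1 := by
    have h1 : (aeval t q • M.map (aeval t)).det = aeval t q ^ d * aeval t M.det := by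
      rw [Matrix.det_smul, Fintype.card_fin, hdet M]
    rw [hdet P, ← h1]
    refine congr_det _ _ (fun i j => by rw [Matrix.map_apply]; exact hPle i j) ?_ ?_
    · intro i j
      rw [Matrix.smul_apply, Matrix.map_apply, smul_eq_mul, map_mul, hq1, one_mul]
      exact hMle i j
    · intro i j
      have h2 := hPM i j
      rw [map_sub, map_mul] at h2
      rw [Matrix.map_apply, Matrix.smul_apply, Matrix.map_apply, smul_eq_mul]
      exact h2
  -- (d) the index is constant
  obtain ⟨c₀, -, hc₀⟩ := index_const hG.inj β hβs b₁ hb₁ hn hw0 e he hU q P hq0 hP r W hr0 hW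
  have hev : aeval t P.det ^ n * aeval t W.det
      = algebraMap L F c₀ * (aeval t q ^ (d * n) * aeval t r ^ d) := by
    have h1 := congrArg (aeval t) hc₀
    simpa only [map_mul, map_pow, aeval_C] using h1
  have hvW : v (aeval t W.det) = 1 := by
    have h1 : v (aeval t W.det - aeval t r ^ d) < v (aeval t r ^ d) := by
      rw [map_pow, hr1, one_pow]; exact hWdet
    have h2 := Valuation.map_add_eq_of_lt_left v h1
    rw [add_sub_cancel, map_pow, hr1, one_pow] at h2
    exact h2
  have hvc : v (algebraMap L F c₀) = 1 := by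
    have h1 := congrArg v hev
    simp only [map_mul, map_pow, hvP, hvW, hq1, hr1, one_pow, mul_one] at h1
    exact h1.symm
  have hvD : v (aeval t M.det) ≤ 1 := hdetle M hMle
  have hDn : v (aeval t M.det ^ n - algebraMap L F c₀) < 1 := by
    have h1 : v ((aeval t q ^ d * aeval t M.det) ^ n * aeval t r ^ d
        - aeval t P.det ^ n * aeval t W.det) < 1 := by
      have hle : v (aeval t q ^ d * aeval t M.det) ≤ 1 := by
        rw [map_mul, map_pow, hq1, one_pow, one_mul]; exact hvD
      refine congr_mul (congr_pow ?_ hle hvP.le n hn) ?_ ?_ hvW.le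
      · rw [Valuation.map_sub_swap]; exact hPdet
      · rw [Valuation.map_sub_swap]; exact hWdet
      · rw [map_pow]; exact pow_le_one' hle n
    have h2 : (aeval t q ^ d * aeval t M.det) ^ n * aeval t r ^ d
        - aeval t P.det ^ n * aeval t W.det
        = (aeval t q ^ (d * n) * aeval t r ^ d) * (aeval t M.det ^ n - algebraMap L F c₀) := by
      rw [hev, pow_mul]; ring
    rw [h2, map_mul, map_mul, map_pow, map_pow, hq1, hr1, one_pow, one_pow, one_mul, one_mul] at h1
    exact h1
  -- the degree argument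
  obtain ⟨hu1, hui⟩ := coeff_of_pow_congr_const (v.comap (algebraMap L F)) M.det c₀ hn
    (fun i => (hG M.det 1).1 hvD i) hvc
    (fun i => (hG.lt_iff (M.det ^ n - C c₀) 1 one_ne_zero).1
      (by rw [map_sub, map_pow, aeval_C]; exact hDn) i)
  rw [Valuation.comap_apply] at hu1
  set u : L := M.det.coeff 0 with hu
  have hDu : v (aeval t M.det - algebraMap L F u) < 1 := by
    have h1 : aeval t M.det - algebraMap L F u = aeval t (M.det - C u) := by
      rw [map_sub, aeval_C]
    rw [h1]
    refine (hG.lt_iff _ 1 one_ne_zero).2 fun i => ?_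
    rcases Nat.eq_zero_or_pos i with rfl | hi
    · rw [coeff_sub, coeff_C_zero, hu, sub_self, map_zero, map_zero]
      exact zero_lt_one
    · rw [coeff_sub, coeff_C, if_neg hi.ne', sub_zero]
      exact hui i hi
  have hu0 : algebraMap L F u ≠ 0 := by
    intro h
    rw [h, map_zero] at hu1
    exact zero_ne_one hu1
  have hvu' : v (aeval t (C u⁻¹ : L[X])) = 1 := by
    rw [aeval_C, map_inv₀, map_inv₀, hu1, inv_one]
  -- `1` in the basis `b₁`
  obtain ⟨g, hg⟩ := (hb₁.2 1).1 (IsInt.one : IsInt L t (1 : F))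
  have hgle : ∀ j, v (aeval t (g j)) ≤ 1 := by
    refine (hb₁ON g 1).1 ?_
    rw [← hg, map_one]
  -- the element `G`
  let γ : Fin d → L[X] := fun j => C u⁻¹ * Matrix.vecMul g M.adjugate j
  have hγle : ∀ j, v (aeval t (γ j)) ≤ 1 := by
    intro j
    have h1 : aeval t (γ j) = aeval t (C u⁻¹ : L[X]) *
        ∑ i, aeval t (g i) * (M.map (aeval t)).adjugate i j := by
      have h2 : ∀ i, (M.map (aeval t)).adjugate i j = aeval t (M.adjugate i j) := by
        intro i
        have h3 := AlgHom.map_adjugate (aeval t : L[X] →ₐ[L] F) M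
        rw [AlgHom.mapMatrix_apply, AlgHom.mapMatrix_apply] at h3
        rw [← h3, Matrix.map_apply]
      simp only [γ, Matrix.vecMul, dotProduct, map_mul, map_sum, h2]
    rw [h1, map_mul, hvu', one_mul]
    refine Valuation.map_sum_le v fun i _ => ?_
    rw [map_mul]
    exact mul_le_one' (hgle i)
      (v_adjugate_le_one _ (fun k l => by rw [Matrix.map_apply]; exact hMle k l) i j)
  refine ⟨comb L t γ e, (he.2 _).2 ⟨γ, rfl⟩, ?_⟩
  have hsplit : comb L t γ e - 1 = (comb L t γ e - comb L t γ b') + (comb L t γ b' - 1) := by ring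
  rw [hsplit]
  refine Valuation.map_add_lt v ?_ ?_
  · have h1 : comb L t γ e - comb L t γ b' = ∑ j, aeval t (γ j) * (e j - b' j) := by
      simp only [comb, mul_sub, Finset.sum_sub_distrib]
    rw [h1]
    refine Valuation.map_sum_lt v one_ne_zero fun j _ => ?_
    rw [map_mul]
    exact (mul_le_of_le_one_left' (hγle j)).trans_lt (hb'lt j)
  · have h1 : comb L t γ b' = comb L t (Matrix.vecMul γ M) b₁ := by
      rw [← comb_comb]
      congr 1
      funext i
      exact hM₀ i
    have h2 : Matrix.vecMul γ M = fun j => (C u⁻¹ * M.det) * g j := by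
      have h3 : γ = (C u⁻¹ : L[X]) • Matrix.vecMul g M.adjugate := by
        funext j; simp [γ]
      rw [h3, Matrix.smul_vecMul, Matrix.vecMul_vecMul, Matrix.adjugate_mul, Matrix.vecMul_smul,
        Matrix.vecMul_one]
      funext j
      simp [mul_assoc]
    rw [h1, h2, comb_mul_left', ← hg, mul_one, map_mul, aeval_C, map_inv₀]
    have h4 : (algebraMap L F u)⁻¹ * aeval t M.det - 1
        = (algebraMap L F u)⁻¹ * (aeval t M.det - algebraMap L F u) := by
      field_simp
    rw [h4, map_mul, map_inv₀, hu1, inv_one, one_mul]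
    exact hDu

end Fermat.Agent.GAL.KL
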