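import Fermat.Agent.GAL.KL.Defs

/-!
# GAL / KL : `p(1/t) = t^{-N} (reflect N p)(t)`
-/

set_option autoImplicit false

namespace Fermat.Agent.GAL.KL

open Polynomial

variable {L F : Type*} [Field L] [Field F] [Algebra L F] {t : F}

theorem aeval_reflect (ht : t ≠ 0) (N : ℕ) (p : L[X]) (hp : p.natDegree ≤ N) :
    aeval t (reflect N p) = t ^ N * aeval t⁻¹ p := by
  have hti : t⁻¹ ≠ 0 := inv_ne_zero ht
  letI : Invertible (t⁻¹) := invertibleOfNonzero hti
  have h := eval₂_reflect_mul_pow (algebraMap L F) (t⁻¹) N p hp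
  rw [invOf_eq_inv, inv_inv] at h
  rw [aeval_def, aeval_def, ← h, mul_comm (t ^ N), mul_assoc, ← mul_pow, inv_mul_cancel₀ ht,
    one_pow, mul_one]

theorem aeval_inv_reflect (ht : t ≠ 0) (N : ℕ) (p : L[X]) (hp : p.natDegree ≤ N) :
    aeval t⁻¹ (reflect N p) = (t⁻¹) ^ N * aeval t p := by
  have h := aeval_reflect (L := L) (inv_ne_zero ht) N p hp
  rwa [inv_inv] at h

theorem aeval_inv_eq (ht : t ≠ 0) (N : ℕ) (p : L[X]) (hp : p.natDegree ≤ N) :
    aeval t⁻¹ p = (t⁻¹) ^ N * aeval t (reflect N p) := by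
  rw [aeval_reflect ht N p hp, ← mul_assoc, ← mul_pow, inv_mul_cancel₀ ht, one_pow, one_mul]

end Fermat.Agent.GAL.KL
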